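/-
S18 / wave 4 (helper47): abstract Kummer–Čech theorem (Leaf C of the route of report #1088).
Basic vocabulary: divisibility by `ϖ` inside a subalgebra `C` of a field `F`, prime elements,
and the localisation of `C` at the prime `ϖ C` as a subalgebra of `F`.
-/
import Mathlib

set_option autoImplicit false

noncomputable section

namespace Fermat.Agent.S18.H47

variable {A₀ : Type*} [CommRing A₀] {F : Type*} [Field F] [Algebra A₀ F]

/-- `ϖ ∣ c` inside the subalgebra `C`. -/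
def Dv (ϖ : A₀) (C : Subalgebra A₀ F) (c : F) : Prop := ∃ d ∈ C, c = ϖ • d

/-- `ϖ` is a prime element of `C`. -/
structure IsPrimeElt (ϖ : A₀) (C : Subalgebra A₀ F) : Prop where
  one : ¬ Dv ϖ C 1
  mul : ∀ a ∈ C, ∀ b ∈ C, Dv ϖ C (a * b) → Dv ϖ C a ∨ Dv ϖ C b

/-- `O` is the localisation of `C` at the prime `ϖ C` (inside `F`). -/
structure IsLocAt (ϖ : A₀) (C O : Subalgebra A₀ F) : Prop where
  le : C ≤ O
  exists_mul_mem : ∀ y ∈ O, ∃ c ∈ C, ¬ Dv ϖ C c ∧ y * c ∈ C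
  inv_mem : ∀ c ∈ C, ¬ Dv ϖ C c → c⁻¹ ∈ O

end Fermat.Agent.S18.H47
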