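/-
S18 / wave 4 (helper47): Leaf C `kummer_cech` — basic lemmas on prime elements, the localisation
`O = C_(ϖ)` inside `F`, and clearing denominators of integral elements.
-/
import Fermat.Agent.S18.H47.Basic

set_option autoImplicit false

open Polynomial

noncomputable section

namespace Fermat.Agent.S18.H47

variable {A₀ : Type*} [CommRing A₀] {F : Type*} [Field F] [Algebra A₀ F]

/-- Clearing denominators: if every element of `R'` has a multiple in `R` by an element of the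
multiplicative set `M ⊆ R`, then every element integral over `R'` has a multiple by an element of
`M` which is integral over `R`. -/
theorem exists_smul_isIntegral (R R' : Subalgebra A₀ F) (hle : R ≤ R') (M : Set F)
    (hM1 : (1 : F) ∈ M) (hMmul : ∀ a ∈ M, ∀ b ∈ M, a * b ∈ M) (hMR : ∀ a ∈ M, a ∈ R)
    (hR' : ∀ y ∈ R', ∃ c ∈ M, y * c ∈ R)
    {E : Type*} [CommRing E] [Algebra F E] (y : E) (hy : IsIntegral ↥R' y) :
    ∃ c ∈ M, IsIntegral ↥R (c • y) := by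
  classical
  obtain ⟨P, hPm, hP⟩ := hy
  choose! φ hφM hφ using hR'
  set d := P.natDegree with hd
  set c : F := ∏ i ∈ Finset.range d, φ (P.coeff i : F) with hc
  have hprodM : ∀ s : Finset ℕ, (∏ i ∈ s, φ (P.coeff i : F)) ∈ M := by
    intro s
    induction s using Finset.induction_on with
    | empty => simpa using hM1
    | insert a s ha ih =>
      rw [Finset.prod_insert ha]
      exact hMmul _ (hφM _ (P.coeff a).2) _ ih
  have hcM : c ∈ M := hprodM _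
  have hcR : c ∈ R := hMR c hcM
  have hcoef : ∀ i, i < d → (P.coeff i : F) * c ∈ R := by
    intro i hi
    have hi' : i ∈ Finset.range d := Finset.mem_range.mpr hi
    rw [hc, ← Finset.mul_prod_erase _ _ hi', ← mul_assoc]
    exact R.mul_mem (hφ _ (P.coeff i).2) (hMR _ (hprodM _))
  -- the scaled polynomial
  set c' : ↥R' := ⟨c, hle hcR⟩ with hc'
  set Q := P.scaleRoots c' with hQ
  have hQm : Q.Monic := (monic_scaleRoots_iff c').mpr hPm
  have hQlift : Q ∈ Polynomial.lifts (Subalgebra.inclusion hle).toRingHom := by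
    rw [Polynomial.lifts_iff_coeff_lifts]
    intro i
    rw [hQ, coeff_scaleRoots]
    rcases lt_trichotomy i d with hi | hi | hi
    · have h1 : (P.coeff i : F) * c ^ (d - i) ∈ R := by
        have : d - i = (d - i - 1) + 1 := by omega
        rw [this, pow_succ, ← mul_assoc, mul_comm _ c, ← mul_assoc, mul_comm c]
        exact R.mul_mem (hcoef i hi) (R.pow_mem hcR _)
      refine ⟨⟨_, h1⟩, ?_⟩
      apply Subtype.ext
      simp [hc', hd]
    · refine ⟨1, ?_⟩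
      rw [hi, hd, hPm.coeff_natDegree]
      simp
    · refine ⟨0, ?_⟩
      rw [coeff_eq_zero_of_natDegree_lt (by omega)]
      simp
  obtain ⟨Q', hQ'map, -, hQ'm⟩ := Polynomial.lifts_and_degree_eq_and_monic hQlift hQm
  refine ⟨c, hcM, Q', hQ'm, ?_⟩
  have h0 : eval₂ (algebraMap ↥R' E) (algebraMap ↥R' E c' * y) Q = 0 :=
    scaleRoots_eval₂_eq_zero (algebraMap ↥R' E) hP
  have h1 : algebraMap ↥R' E c' * y = c • y := by
    rw [Algebra.smul_def]
    rfl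
  rw [h1, ← hQ'map, eval₂_map] at h0
  exact h0

section Prime

variable {ϖ : A₀} {C : Subalgebra A₀ F}

theorem dv_smul {d : F} (hd : d ∈ C) : Dv ϖ C (ϖ • d) := ⟨d, hd, rfl⟩

theorem Dv.mem {c : F} (h : Dv ϖ C c) : c ∈ C := by
  obtain ⟨d, hd, rfl⟩ := h
  exact C.smul_mem hd _

theorem Dv.mul_right {a : F} (h : Dv ϖ C a) {b : F} (hb : b ∈ C) : Dv ϖ C (a * b) := by
  obtain ⟨d, hd, rfl⟩ := h
  exact ⟨d * b, C.mul_mem hd hb, by rw [smul_mul_assoc]⟩

theorem Dv.mul_left {a : F} (h : Dv ϖ C a) {b : F} (hb : b ∈ C) : Dv ϖ C (b * a) := by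
  rw [mul_comm]
  exact h.mul_right hb

theorem Dv.add {a b : F} (ha : Dv ϖ C a) (hb : Dv ϖ C b) : Dv ϖ C (a + b) := by
  obtain ⟨d, hd, rfl⟩ := ha
  obtain ⟨e, he, rfl⟩ := hb
  exact ⟨d + e, C.add_mem hd he, by rw [smul_add]⟩

theorem Dv.neg {a : F} (ha : Dv ϖ C a) : Dv ϖ C (-a) := by
  obtain ⟨d, hd, rfl⟩ := ha
  exact ⟨-d, C.neg_mem hd, by rw [smul_neg]⟩

theorem Dv.sub {a b : F} (ha : Dv ϖ C a) (hb : Dv ϖ C b) : Dv ϖ C (a - b) := by
  rw [sub_eq_add_neg]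
  exact ha.add hb.neg

theorem IsPrimeElt.not_dv_mul (hprime : IsPrimeElt ϖ C) {a b : F} (ha : a ∈ C) (hb : b ∈ C)
    (hna : ¬ Dv ϖ C a) (hnb : ¬ Dv ϖ C b) : ¬ Dv ϖ C (a * b) := fun h =>
  (hprime.mul a ha b hb h).elim hna hnb

theorem IsPrimeElt.not_dv_pow (hprime : IsPrimeElt ϖ C) {a : F} (ha : a ∈ C)
    (hna : ¬ Dv ϖ C a) (n : ℕ) : ¬ Dv ϖ C (a ^ n) := by
  induction n with
  | zero => simpa using hprime.one
  | succ n ih =>
    rw [pow_succ]
    exact hprime.not_dv_mul (C.pow_mem ha n) ha ih hna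

/-- Cancellation of powers: if `μ c^N ∈ C` with `ϖ ∤ c` and `μ ϖ^n ∈ C`, then `μ ∈ C`. -/
theorem IsPrimeElt.mem_of_pow_mul_mem (hprime : IsPrimeElt ϖ C) (hϖ0 : algebraMap A₀ F ϖ ≠ 0)
    {c : F} (hc : c ∈ C) (hnc : ¬ Dv ϖ C c) (N : ℕ) :
    ∀ (n : ℕ) (μ : F), μ * c ^ N ∈ C → μ * algebraMap A₀ F ϖ ^ n ∈ C → μ ∈ C := by
  intro n
  induction n with
  | zero => intro μ _ h; simpa using h
  | succ n ih =>
    intro μ h1 h2
    apply ih μ h1
    have hdv : Dv ϖ C (c ^ N * (μ * algebraMap A₀ F ϖ ^ (n + 1))) := by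
      refine ⟨algebraMap A₀ F ϖ ^ n * (μ * c ^ N), C.mul_mem (C.pow_mem (C.algebraMap_mem _) _) h1,
        ?_⟩
      rw [Algebra.smul_def, pow_succ]
      ring
    rcases hprime.mul _ (C.pow_mem hc N) _ h2 hdv with h | h
    · exact absurd h (hprime.not_dv_pow hc hnc N)
    · obtain ⟨v, hv, hv'⟩ := h
      have : μ * algebraMap A₀ F ϖ ^ n = v := by
        rw [Algebra.smul_def, pow_succ, ← mul_assoc, mul_comm] at hv'
        exact mul_left_cancel₀ hϖ0 hv'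
      rw [this]
      exact hv

end Prime

section Loc

variable {ϖ : A₀} {C O : Subalgebra A₀ F}

/-- The multiplicative set `C ∖ ϖ C`. -/
def nonDv (ϖ : A₀) (C : Subalgebra A₀ F) : Set F := {c | c ∈ C ∧ ¬ Dv ϖ C c}

theorem isFractionRing_of_frac (C : Subalgebra A₀ F)
    (hfrac : ∀ x : F, ∃ a ∈ C, ∃ b ∈ C, b ≠ 0 ∧ x = a / b) : IsFractionRing ↥C F := by
  refine IsFractionRing.of_field ↥C F fun z => ?_
  obtain ⟨a, ha, b, hb, -, rfl⟩ := hfrac z
  exact ⟨⟨a, ha⟩, ⟨b, hb⟩, rfl⟩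

theorem IsLocAt.frac (hloc : IsLocAt ϖ C O)
    (hfrac : ∀ x : F, ∃ a ∈ C, ∃ b ∈ C, b ≠ 0 ∧ x = a / b) :
    ∀ x : F, ∃ a ∈ O, ∃ b ∈ O, b ≠ 0 ∧ x = a / b := fun x => by
  obtain ⟨a, ha, b, hb, hb0, rfl⟩ := hfrac x
  exact ⟨a, hloc.le ha, b, hloc.le hb, hb0, rfl⟩

/-- Elements integral over `O = C_(ϖ)` have a multiple by an element of `C ∖ ϖ C` which is
integral over `C`. -/
theorem IsLocAt.exists_smul_isIntegral (hloc : IsLocAt ϖ C O) (hprime : IsPrimeElt ϖ C)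
    {E : Type*} [CommRing E] [Algebra F E] (y : E) (hy : IsIntegral ↥O y) :
    ∃ c ∈ C, ¬ Dv ϖ C c ∧ IsIntegral ↥C (c • y) := by
  obtain ⟨c, ⟨hcC, hcn⟩, hc⟩ := H47.exists_smul_isIntegral C O hloc.le (nonDv ϖ C)
    ⟨C.one_mem, hprime.one⟩
    (fun a ha b hb => ⟨C.mul_mem ha.1 hb.1, hprime.not_dv_mul ha.1 hb.1 ha.2 hb.2⟩)
    (fun a ha => ha.1)
    (fun y hy => by
      obtain ⟨c, hc, hcn, hyc⟩ := hloc.exists_mul_mem y hy
      exact ⟨c, ⟨hc, hcn⟩, hyc⟩) y hy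
  exact ⟨c, hcC, hcn, hc⟩

/-- `O = C_(ϖ)` is integrally closed when `C` is. -/
theorem IsLocAt.isIntegrallyClosed (hloc : IsLocAt ϖ C O) (hprime : IsPrimeElt ϖ C)
    [IsIntegrallyClosed ↥C] (hfrac : ∀ x : F, ∃ a ∈ C, ∃ b ∈ C, b ≠ 0 ∧ x = a / b) :
    IsIntegrallyClosed ↥O := by
  have := isFractionRing_of_frac C hfrac
  have := isFractionRing_of_frac O (hloc.frac hfrac)
  refine (isIntegrallyClosed_iff F).mpr fun {x} hx => ?_
  obtain ⟨c, hcC, hcn, hc⟩ := hloc.exists_smul_isIntegral hprime x hx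
  obtain ⟨z, hz⟩ := IsIntegrallyClosed.isIntegral_iff.mp hc
  have hc0 : c ≠ 0 := by
    rintro rfl
    exact hcn ⟨0, C.zero_mem, by simp⟩
  refine ⟨⟨x, ?_⟩, rfl⟩
  have hx' : x = (z : F) * c⁻¹ := by
    have : (z : F) = c • x := hz
    rw [this, smul_eq_mul]
    field_simp
  rw [hx']
  exact O.mul_mem (hloc.le z.2) (hloc.inv_mem c hcC hcn)

/-- `ϖ O ∩ C = ϖ C`. -/
theorem IsLocAt.dv_of_smul (hloc : IsLocAt ϖ C O) (hprime : IsPrimeElt ϖ C)
    {y o : F} (hy : y ∈ C) (ho : o ∈ O) (h : y = ϖ • o) :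
    Dv ϖ C y := by
  obtain ⟨c, hc, hcn, hoc⟩ := hloc.exists_mul_mem o ho
  have hdv : Dv ϖ C (y * c) := ⟨o * c, hoc, by rw [h, smul_mul_assoc]⟩
  rcases hprime.mul y hy c hc hdv with h' | h'
  · exact h'
  · exact absurd h' hcn

end Loc

end Fermat.Agent.S18.H47
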