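/-
S18 / wave 4 (helper47): Leaf C `kummer_cech`, step K4 — the local idempotent and its
globalisation: `ε̃ = p⁻¹ ∑ g^i` is congruent modulo `ϖ S` to an element integral over `C`.
-/
import Fermat.Agent.S18.H47.Loc

set_option autoImplicit false

open Polynomial

noncomputable section

namespace Fermat.Agent.S18.H47

/-- In an integrally closed domain, `n ^ p = r * c ^ p` with `c ≠ 0` forces `c ∣ n`. -/
theorem dvd_of_pow_eq_mul_pow {R : Type*} [CommRing R] [IsDomain R] [IsIntegrallyClosed R]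
    (p : ℕ) (hp0 : p ≠ 0) (n c r : R) (hc : c ≠ 0) (h : n ^ p = r * c ^ p) : c ∣ n := by
  have hcK : algebraMap R (FractionRing R) c ≠ 0 := fun h0 =>
    hc ((IsFractionRing.injective R (FractionRing R)) (by rw [h0, map_zero]))
  have hξp : (algebraMap R (FractionRing R) n / algebraMap R (FractionRing R) c) ^ p =
      algebraMap R (FractionRing R) r := by
    rw [div_pow, ← map_pow, ← map_pow, h, map_mul, map_pow]
    field_simp
  have hξint : IsIntegral R (algebraMap R (FractionRing R) n / algebraMap R (FractionRing R) c) := by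
    refine ⟨X ^ p - Polynomial.C r, monic_X_pow_sub_C _ hp0, ?_⟩
    rw [eval₂_sub, eval₂_X_pow, eval₂_C, hξp, sub_self]
  obtain ⟨α, hα⟩ := IsIntegrallyClosed.isIntegral_iff.mp hξint
  refine ⟨α, ?_⟩
  apply IsFractionRing.injective R (FractionRing R)
  rw [map_mul, hα]
  field_simp

variable {A₀ : Type*} [CommRing A₀] {F : Type*} [Field F] [Algebra A₀ F]

section Quot

variable {ϖ : A₀} {C O : Subalgebra A₀ F}

theorem dv_iff_dvd (a : ↥C) : Dv ϖ C (a : F) ↔ algebraMap A₀ ↥C ϖ ∣ a := by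
  constructor
  · rintro ⟨d, hd, h⟩
    refine ⟨⟨d, hd⟩, Subtype.ext ?_⟩
    rw [h, Algebra.smul_def]
    rfl
  · rintro ⟨d, rfl⟩
    refine ⟨d, d.2, ?_⟩
    rw [Algebra.smul_def]
    rfl

theorem IsPrimeElt.prime (hprime : IsPrimeElt ϖ C) (hϖ0 : algebraMap A₀ F ϖ ≠ 0) :
    Prime (algebraMap A₀ ↥C ϖ) := by
  refine ⟨?_, ?_, ?_⟩
  · intro h
    apply hϖ0
    have := congrArg (Subtype.val : ↥C → F) h
    simpa using this
  · intro hu
    apply hprime.one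
    have : algebraMap A₀ ↥C ϖ ∣ (1 : ↥C) := hu.dvd
    exact (dv_iff_dvd (1 : ↥C)).mpr this
  · intro a b hab
    have h := hprime.mul a a.2 b b.2 ((dv_iff_dvd (a * b)).mpr hab)
    rcases h with h | h
    · exact Or.inl ((dv_iff_dvd a).mp h)
    · exact Or.inr ((dv_iff_dvd b).mp h)

theorem isIntegral_of_le {R R' : Subalgebra A₀ F} (h : R ≤ R') {E : Type*} [CommRing E]
    [Algebra F E] {e : E} (he : IsIntegral ↥R e) : IsIntegral ↥R' e := by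
  obtain ⟨P, hm, hP⟩ := he
  refine ⟨P.map (Subalgebra.inclusion h).toRingHom, hm.map _, ?_⟩
  rw [eval₂_map]
  exact hP

theorem isIntegral_smul_of_mem {R : Subalgebra A₀ F} {E : Type*} [CommRing E]
    [Algebra F E] {u : F} (hu : u ∈ R) {e : E} (he : IsIntegral ↥R e) : IsIntegral ↥R (u • e) := by
  have : u • e = (⟨u, hu⟩ : ↥R) • e := rfl
  rw [this]
  exact he.smul _

theorem isIntegral_algebraMap_of_mem {R : Subalgebra A₀ F} {E : Type*} [CommRing E]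
    [Algebra F E] {u : F} (hu : u ∈ R) : IsIntegral ↥R (algebraMap F E u) := by
  have : algebraMap F E u = algebraMap ↥R E ⟨u, hu⟩ := rfl
  rw [this]
  exact isIntegral_algebraMap

/-- A `p`-th root modulo `ϖ O` of an element of `C` is congruent to an element of `C`
(`C / ϖ` is integrally closed with fraction field `O / ϖ O`). -/
theorem exists_approx_of_pow (hprime : IsPrimeElt ϖ C) (hloc : IsLocAt ϖ C O)
    (hϖ0 : algebraMap A₀ F ϖ ≠ 0)
    (hbar : IsIntegrallyClosed (↥C ⧸ Ideal.span {algebraMap A₀ ↥C ϖ}))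
    (p : ℕ) (hp0 : p ≠ 0) (θ : F) (hθ : θ ∈ O) (r₀ : F) (hr₀ : r₀ ∈ C) (o₁ : F) (ho₁ : o₁ ∈ O)
    (h : θ ^ p - r₀ = ϖ • o₁) :
    ∃ α ∈ C, ∃ o₂ ∈ O, θ - α = ϖ • o₂ := by
  obtain ⟨c, hc, hcn, hθc⟩ := hloc.exists_mul_mem θ hθ
  have hc0 : c ≠ 0 := by
    rintro rfl
    exact hcn ⟨0, C.zero_mem, by simp⟩
  have hmem : (θ * c) ^ p - r₀ * c ^ p ∈ C :=
    C.sub_mem (C.pow_mem hθc p) (C.mul_mem hr₀ (C.pow_mem hc p))
  have hdv : Dv ϖ C ((θ * c) ^ p - r₀ * c ^ p) := by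
    refine hloc.dv_of_smul hprime hmem (o := o₁ * c ^ p)
      (O.mul_mem ho₁ (hloc.le (C.pow_mem hc p))) ?_
    rw [← smul_mul_assoc, ← h]
    ring
  set I : Ideal ↥C := Ideal.span {algebraMap A₀ ↥C ϖ} with hI
  have hpr : Prime (algebraMap A₀ ↥C ϖ) := hprime.prime hϖ0
  have hIprime : I.IsPrime := (Ideal.span_singleton_prime hpr.ne_zero).mpr hpr
  have hdom : IsDomain (↥C ⧸ I) := Ideal.Quotient.isDomain I
  let n' : ↥C := ⟨θ * c, hθc⟩
  let c' : ↥C := ⟨c, hc⟩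
  let r' : ↥C := ⟨r₀, hr₀⟩
  have hq : Ideal.Quotient.mk I n' ^ p = Ideal.Quotient.mk I r' * Ideal.Quotient.mk I c' ^ p := by
    rw [← map_pow, ← map_pow, ← map_mul, ← sub_eq_zero, ← map_sub, Ideal.Quotient.eq_zero_iff_mem,
      hI, Ideal.mem_span_singleton]
    exact (dv_iff_dvd (n' ^ p - r' * c' ^ p)).mp hdv
  have hc'0 : Ideal.Quotient.mk I c' ≠ 0 := by
    intro h0
    rw [Ideal.Quotient.eq_zero_iff_mem, hI, Ideal.mem_span_singleton] at h0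
    exact hcn ((dv_iff_dvd c').mpr h0)
  obtain ⟨αbar, hαbar⟩ := dvd_of_pow_eq_mul_pow p hp0 _ _ _ hc'0 hq
  obtain ⟨α', rfl⟩ := Ideal.Quotient.mk_surjective αbar
  have heq : Ideal.Quotient.mk I n' = Ideal.Quotient.mk I α' * Ideal.Quotient.mk I c' := by
    rw [hαbar, mul_comm]
  rw [← map_mul, ← sub_eq_zero, ← map_sub, Ideal.Quotient.eq_zero_iff_mem, hI,
    Ideal.mem_span_singleton] at heq
  obtain ⟨e', he'⟩ := heq
  refine ⟨α', α'.2, (e' : F) * c⁻¹, O.mul_mem (hloc.le e'.2) (hloc.inv_mem c hc hcn), ?_⟩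
  have he'' : θ * c - (α' : F) * c = algebraMap A₀ F ϖ * (e' : F) := by
    have := congrArg (Subtype.val : ↥C → F) he'
    simpa [n', c'] using this
  rw [Algebra.smul_def, ← mul_assoc, ← he'']
  field_simp

end Quot

section Local

/-- **K4: the local idempotent.** -/
theorem local_idem (ϖ : A₀) (C O : Subalgebra A₀ F)
    (hprime : IsPrimeElt ϖ C) (hloc : IsLocAt ϖ C O) [IsIntegrallyClosed ↥O]
    (hOfrac : ∀ x : F, ∃ a ∈ O, ∃ b ∈ O, b ≠ 0 ∧ x = a / b)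
    (hϖ0 : algebraMap A₀ F ϖ ≠ 0)
    (hbar : IsIntegrallyClosed (↥C ⧸ Ideal.span {algebraMap A₀ ↥C ϖ}))
    (p : ℕ) (hp0 : p ≠ 0) (hpu : IsUnit (p : A₀))
    (f : F) (hf : ∃ a ∈ C, ∃ b ∈ C, ¬ Dv ϖ C b ∧ Dv ϖ C (a - b) ∧ f * b = a)
    {E : Type*} [Field E] [Algebra F E] [Algebra A₀ E] [IsScalarTower A₀ F E]
    (g : E) (hg : g ^ p = algebraMap F E f)
    (x : Ideal ↥C) (hx : x.IsMaximal) (hϖx : algebraMap A₀ ↥C ϖ ∈ x)
    (t : F) (ht : t ≠ 0) (a b : ↥C) (ha : a ∉ x) (hb : b ∉ x)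
    (hfab : f * (b : F) = (a : F) * t ^ p) :
    ∃ c : ↥C, c ∉ x ∧ ∃ β : E, IsIntegral ↥C β ∧ ∃ s : E, IsIntegral ↥O s ∧
      c • ((p : E)⁻¹ * ∑ i ∈ Finset.range p, g ^ i) = β + ϖ • s := by
  have hOfr : IsFractionRing ↥O F := isFractionRing_of_frac O hOfrac
  -- Step A: facts on `f`
  obtain ⟨a₀, ha₀, b₀, hb₀, hnb₀, ⟨d₀, hd₀, hab₀⟩, hfa₀⟩ := hf
  have hb₀0 : b₀ ≠ 0 := by
    rintro rfl
    exact hnb₀ ⟨0, C.zero_mem, by simp⟩
  have hf1 : f - 1 = ϖ • (d₀ * b₀⁻¹) := by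
    have : f = a₀ * b₀⁻¹ := by rw [← hfa₀]; field_simp
    rw [this, ← smul_mul_assoc, ← hab₀]
    field_simp
  have ho₁ : d₀ * b₀⁻¹ ∈ O := O.mul_mem (hloc.le hd₀) (hloc.inv_mem b₀ hb₀ hnb₀)
  -- Step B: `a, b ∉ ϖ C`, `t ∈ O`
  have hna : ¬ Dv ϖ C (a : F) := fun h =>
    ha (Ideal.mem_of_dvd x ((dv_iff_dvd a).mp h) hϖx)
  have hnb : ¬ Dv ϖ C (b : F) := fun h =>
    hb (Ideal.mem_of_dvd x ((dv_iff_dvd b).mp h) hϖx)
  have ha0 : (a : F) ≠ 0 := fun h => hna ⟨0, C.zero_mem, by simp [h]⟩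
  have hb0 : (b : F) ≠ 0 := fun h => hnb ⟨0, C.zero_mem, by simp [h]⟩
  have hfO : f ∈ O := by
    have : f = a₀ * b₀⁻¹ := by rw [← hfa₀]; field_simp
    rw [this]
    exact O.mul_mem (hloc.le ha₀) (hloc.inv_mem b₀ hb₀ hnb₀)
  have hp1 : p - 1 + 1 = p := Nat.sub_add_cancel (Nat.one_le_iff_ne_zero.mpr hp0)
  have htp : t ^ p = f * b * (a : F)⁻¹ := by rw [hfab]; field_simp
  have htpO : t ^ p ∈ O := by
    rw [htp]
    exact O.mul_mem (O.mul_mem hfO (hloc.le b.2)) (hloc.inv_mem a a.2 hna)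
  have htO : t ∈ O := by
    have hint : IsIntegral ↥O t := by
      refine ⟨X ^ p - Polynomial.C ⟨t ^ p, htpO⟩, monic_X_pow_sub_C _ hp0, ?_⟩
      rw [eval₂_sub, eval₂_X_pow, eval₂_C]
      exact sub_self _
    obtain ⟨z, hz⟩ := IsIntegrallyClosed.isIntegral_iff.mp hint
    rw [← hz]
    exact z.2
  -- Step C: approximate `θ = a t` by an element of `C`
  set θ := (a : F) * t with hθ
  have hθO : θ ∈ O := O.mul_mem (hloc.le a.2) htO
  have hr₀ : (a : F) ^ (p - 1) * b ∈ C := C.mul_mem (C.pow_mem a.2 _) b.2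
  have hθp : θ ^ p - (a : F) ^ (p - 1) * b = ϖ • ((a : F) ^ (p - 1) * b * (d₀ * b₀⁻¹)) := by
    have e1 : θ ^ p = (a : F) ^ (p - 1) * (f * b) := by
      rw [hθ, mul_pow, hfab, ← mul_assoc, ← pow_succ, hp1]
    rw [e1, ← mul_smul_comm, ← hf1]
    ring
  obtain ⟨α, hα, o₂, ho₂, hθα⟩ := exists_approx_of_pow hprime hloc hϖ0 hbar p hp0 θ hθO
    ((a : F) ^ (p - 1) * b) hr₀ _ (O.mul_mem (hloc.le hr₀) ho₁) hθp
  -- Step D: `δ = b g / t` is integral over `C`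
  set δ : E := ((b : F) * t⁻¹) • g with hδ
  have hδp : δ ^ p = algebraMap F E ((b : F) ^ (p - 1) * a) := by
    rw [hδ, _root_.smul_pow, hg, Algebra.smul_def, ← map_mul]
    congr 1
    have hf' : f = (a : F) * t ^ p * (b : F)⁻¹ := by rw [← hfab]; field_simp
    have hb1 : (b : F) ^ p = (b : F) ^ (p - 1) * b := by rw [← pow_succ, hp1]
    rw [hf', mul_pow, inv_pow, hb1]
    field_simp
  have hδint : IsIntegral ↥C δ := by
    refine ⟨X ^ p - Polynomial.C (b ^ (p - 1) * a), monic_X_pow_sub_C _ hp0, ?_⟩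
    rw [eval₂_sub, eval₂_X_pow, eval₂_C, hδp]
    exact sub_self _
  have hδintO : IsIntegral ↥O δ := isIntegral_of_le hloc.le hδint
  have hgi : ∀ i, i < p → (((a : F) * b) ^ (p - 1)) • g ^ i =
      ((a : F) ^ (p - 1 - i) * (b : F) ^ (p - 1 - i) * θ ^ i) • δ ^ i := by
    intro i hi
    rw [hδ, _root_.smul_pow, smul_smul]
    congr 1
    have h1 : p - 1 = (p - 1 - i) + i := by omega
    rw [hθ]
    conv_lhs => rw [h1]
    rw [mul_pow, mul_pow, mul_pow, inv_pow, pow_add, pow_add]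
    field_simp
  -- the pieces
  set q : ℕ → F := fun i => ∑ k ∈ Finset.range i, θ ^ k * α ^ (i - 1 - k) with hq
  have hqO : ∀ i, q i ∈ O := fun i =>
    O.sum_mem fun k _ => O.mul_mem (O.pow_mem hθO _) (O.pow_mem (hloc.le hα) _)
  have hqi : ∀ i, θ ^ i - α ^ i = ϖ • (q i * o₂) := by
    intro i
    rw [← mul_smul_comm, ← hθα, hq]
    exact (Commute.geom_sum₂_mul (Commute.all θ α) i).symm
  set β' : E := ∑ i ∈ Finset.range p,
    ((a : F) ^ (p - 1 - i) * (b : F) ^ (p - 1 - i) * α ^ i) • δ ^ i with hβ'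
  set s' : E := ∑ i ∈ Finset.range p,
    ((a : F) ^ (p - 1 - i) * (b : F) ^ (p - 1 - i) * (q i * o₂)) • δ ^ i with hs'
  have hβ'int : IsIntegral ↥C β' := by
    refine IsIntegral.sum _ fun i _ => ?_
    exact isIntegral_smul_of_mem (C.mul_mem (C.mul_mem (C.pow_mem a.2 _) (C.pow_mem b.2 _))
      (C.pow_mem hα _)) (hδint.pow i)
  have hs'int : IsIntegral ↥O s' := by
    refine IsIntegral.sum _ fun i _ => ?_
    exact isIntegral_smul_of_mem (O.mul_mem (O.mul_mem (O.pow_mem (hloc.le a.2) _)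
      (O.pow_mem (hloc.le b.2) _)) (O.mul_mem (hqO i) ho₂)) (hδintO.pow i)
  have hmain : (((a : F) * b) ^ (p - 1)) • (∑ i ∈ Finset.range p, g ^ i) =
      β' + algebraMap A₀ F ϖ • s' := by
    rw [Finset.smul_sum, hβ', hs', Finset.smul_sum, ← Finset.sum_add_distrib]
    refine Finset.sum_congr rfl fun i hi => ?_
    rw [hgi i (Finset.mem_range.mp hi), smul_smul, ← add_smul]
    congr 1
    have := hqi i
    rw [Algebra.smul_def] at this
    have e : θ ^ i = α ^ i + algebraMap A₀ F ϖ * (q i * o₂) := by rw [← this]; ring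
    rw [e]
    ring
  -- the inverse of `p`
  obtain ⟨pu, hpu'⟩ := hpu
  set pinv : A₀ := ((pu⁻¹ : A₀ˣ) : A₀) with hpinv
  have hpE : ((p : E))⁻¹ = algebraMap A₀ E pinv := by
    have h1 : (p : E) * algebraMap A₀ E pinv = 1 := by
      rw [← map_natCast (algebraMap A₀ E) p, ← map_mul, ← hpu', hpinv, Units.mul_inv, map_one]
    exact inv_eq_of_mul_eq_one_right h1
  refine ⟨(a * b) ^ (p - 1), ?_, pinv • β', ?_, pinv • s', ?_, ?_⟩
  · intro hmem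
    have hxp : x.IsPrime := hx.isPrime
    rcases hxp.mem_or_mem (hxp.mem_of_pow_mem _ hmem) with h | h
    · exact ha h
    · exact hb h
  · rw [← algebraMap_smul ↥C pinv β']
    exact hβ'int.smul _
  · have : pinv • s' = (algebraMap A₀ F pinv) • s' := (algebraMap_smul F pinv s').symm
    rw [this]
    exact isIntegral_smul_of_mem (O.algebraMap_mem _) hs'int
  · have e1 : ((a * b) ^ (p - 1) : ↥C) • ((p : E)⁻¹ * ∑ i ∈ Finset.range p, g ^ i) =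
        pinv • ((((a : F) * b) ^ (p - 1)) • (∑ i ∈ Finset.range p, g ^ i)) := by
      rw [hpE, ← Algebra.smul_def, smul_comm]
      rfl
    rw [e1, hmain, smul_add, algebraMap_smul, smul_comm]

/-- `f ∈ O` for a one-unit `f`. -/
theorem mem_loc_of_oneUnit {ϖ : A₀} {C O : Subalgebra A₀ F} (hloc : IsLocAt ϖ C O) {f : F}
    (hf : ∃ a ∈ C, ∃ b ∈ C, ¬ Dv ϖ C b ∧ Dv ϖ C (a - b) ∧ f * b = a) : f ∈ O := by
  obtain ⟨a₀, ha₀, b₀, hb₀, hnb₀, -, hfa₀⟩ := hf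
  have hb₀0 : b₀ ≠ 0 := by
    rintro rfl
    exact hnb₀ ⟨0, C.zero_mem, by simp⟩
  have : f = a₀ * b₀⁻¹ := by rw [← hfa₀]; field_simp
  rw [this]
  exact O.mul_mem (hloc.le ha₀) (hloc.inv_mem b₀ hb₀ hnb₀)

/-- `ε̃ = p⁻¹ ∑ g^i` is integral over `O`. -/
theorem isIntegral_eps {ϖ : A₀} {C O : Subalgebra A₀ F} (hloc : IsLocAt ϖ C O)
    (p : ℕ) (hp0 : p ≠ 0) (hpu : IsUnit (p : A₀))
    (f : F) (hf : ∃ a ∈ C, ∃ b ∈ C, ¬ Dv ϖ C b ∧ Dv ϖ C (a - b) ∧ f * b = a)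
    {E : Type*} [Field E] [Algebra F E] [Algebra A₀ E] [IsScalarTower A₀ F E]
    (g : E) (hg : g ^ p = algebraMap F E f) :
    IsIntegral ↥O ((p : E)⁻¹ * ∑ i ∈ Finset.range p, g ^ i) := by
  have hfO : f ∈ O := mem_loc_of_oneUnit hloc hf
  have hgint : IsIntegral ↥O g := by
    refine ⟨X ^ p - Polynomial.C ⟨f, hfO⟩, monic_X_pow_sub_C _ hp0, ?_⟩
    rw [eval₂_sub, eval₂_X_pow, eval₂_C, hg]
    exact sub_self _
  obtain ⟨pu, hpu'⟩ := hpu
  have hpE : ((p : E))⁻¹ = algebraMap F E (algebraMap A₀ F ((pu⁻¹ : A₀ˣ) : A₀)) := by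
    have h1 : (p : E) * algebraMap F E (algebraMap A₀ F ((pu⁻¹ : A₀ˣ) : A₀)) = 1 := by
      rw [← IsScalarTower.algebraMap_apply, ← map_natCast (algebraMap A₀ E) p, ← map_mul, ← hpu',
        Units.mul_inv, map_one]
    exact inv_eq_of_mul_eq_one_right h1
  rw [hpE]
  exact (isIntegral_algebraMap_of_mem (O.algebraMap_mem _)).mul
    (IsIntegral.sum _ fun i _ => hgint.pow i)

/-- **K4, global form.** If `f` is locally (at every closed point of `V(ϖ)`) a unit times a `p`-th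
power, then `ε̃ = p⁻¹ ∑ g^i` is congruent modulo `ϖ S` to an element integral over `C`. -/
theorem global_idem (ϖ : A₀) (C O : Subalgebra A₀ F)
    (hprime : IsPrimeElt ϖ C) (hloc : IsLocAt ϖ C O) [IsIntegrallyClosed ↥O]
    (hOfrac : ∀ x : F, ∃ a ∈ O, ∃ b ∈ O, b ≠ 0 ∧ x = a / b)
    (hϖ0 : algebraMap A₀ F ϖ ≠ 0)
    (hbar : IsIntegrallyClosed (↥C ⧸ Ideal.span {algebraMap A₀ ↥C ϖ}))
    (p : ℕ) (hp0 : p ≠ 0) (hpu : IsUnit (p : A₀))
    (f : F) (hf : ∃ a ∈ C, ∃ b ∈ C, ¬ Dv ϖ C b ∧ Dv ϖ C (a - b) ∧ f * b = a)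
    {E : Type*} [Field E] [Algebra F E] [Algebra A₀ E] [IsScalarTower A₀ F E]
    (g : E) (hg : g ^ p = algebraMap F E f)
    (hlocal : ∀ x : Ideal ↥C, x.IsMaximal → algebraMap A₀ ↥C ϖ ∈ x →
      ∃ t : F, t ≠ 0 ∧ ∃ a : ↥C, a ∉ x ∧ ∃ b : ↥C, b ∉ x ∧ f * (b : F) = (a : F) * t ^ p) :
    ∃ β : E, IsIntegral ↥C β ∧ ∃ s : E, IsIntegral ↥O s ∧
      (p : E)⁻¹ * ∑ i ∈ Finset.range p, g ^ i = β + ϖ • s := by
  set ε : E := (p : E)⁻¹ * ∑ i ∈ Finset.range p, g ^ i with hε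
  have hεint : IsIntegral ↥O ε := isIntegral_eps hloc p hp0 hpu f hf g hg
  let 𝔞 : Ideal ↥C :=
    { carrier := {c | ∃ β : E, IsIntegral ↥C β ∧ ∃ s : E, IsIntegral ↥O s ∧ c • ε = β + ϖ • s}
      add_mem' := by
        rintro c₁ c₂ ⟨β₁, hβ₁, s₁, hs₁, h₁⟩ ⟨β₂, hβ₂, s₂, hs₂, h₂⟩
        refine ⟨β₁ + β₂, hβ₁.add hβ₂, s₁ + s₂, hs₁.add hs₂, ?_⟩
        rw [add_smul, h₁, h₂, smul_add]
        abel
      zero_mem' := ⟨0, isIntegral_zero, 0, isIntegral_zero, by simp⟩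
      smul_mem' := by
        rintro r c ⟨β, hβ, s, hs, h⟩
        refine ⟨r • β, hβ.smul r, r • s, ?_, ?_⟩
        · have : r • s = (r : F) • s := rfl
          rw [this]
          exact isIntegral_smul_of_mem (hloc.le r.2) hs
        · rw [smul_eq_mul, mul_smul, h, smul_add, smul_comm] }
  have h1 : (1 : ↥C) ∈ 𝔞 := by
    by_contra h1
    have hne : 𝔞 ≠ ⊤ := fun h => h1 (h ▸ Submodule.mem_top)
    obtain ⟨x, hx, hle⟩ := Ideal.exists_le_maximal 𝔞 hne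
    have hϖ𝔞 : algebraMap A₀ ↥C ϖ ∈ 𝔞 :=
      ⟨0, isIntegral_zero, ε, hεint, by rw [zero_add, algebraMap_smul]⟩
    obtain ⟨t, ht, a, ha, b, hb, hfab⟩ := hlocal x hx (hle hϖ𝔞)
    obtain ⟨c, hcx, hc⟩ := local_idem ϖ C O hprime hloc hOfrac hϖ0 hbar p hp0 hpu f hf g hg
      x hx (hle hϖ𝔞) t ht a b ha hb hfab
    exact hcx (hle hc)
  obtain ⟨β, hβ, s, hs, h⟩ := h1
  exact ⟨β, hβ, s, hs, by rwa [one_smul] at h⟩

end Local

end Fermat.Agent.S18.H47
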