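/-
S18 / wave 4 (helper47): Leaf C `kummer_cech`, step K7 — integrality via valuation subrings.
-/
import Mathlib

set_option autoImplicit false

noncomputable section

namespace Fermat.Agent.S18.H47

/-- An element integral over `R` lies in every valuation subring containing the image of `R`. -/
theorem mem_valuationSubring_of_isIntegral {R E : Type*} [CommRing R] [Field E] [Algebra R E]
    (V : ValuationSubring E) (hR : ∀ r : R, algebraMap R E r ∈ V) {x : E} (hx : IsIntegral R x) :
    x ∈ V := by
  let f' : R →+* V := (algebraMap R E).codRestrict V.toSubring hR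
  have hcomp : (algebraMap V E).comp f' = algebraMap R E := rfl
  have hx' : (algebraMap V E).IsIntegralElem x :=
    RingHom.IsIntegralElem.of_comp (f := f') (by rw [hcomp]; exact hx)
  have hx'' : IsIntegral V x := hx'
  obtain ⟨y, hy⟩ := IsIntegrallyClosed.isIntegral_iff.mp hx''
  rw [← hy]
  exact y.2

/-- **K7.** An element lying in every valuation subring containing the image of `A₀` is integral
over `A₀`. -/
theorem isIntegral_of_forall_valuationSubring {A₀ E : Type*} [CommRing A₀] [Field E]
    [Algebra A₀ E] (G : E)
    (h : ∀ V : ValuationSubring E, (∀ a : A₀, algebraMap A₀ E a ∈ V) → G ∈ V) :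
    IsIntegral A₀ G := by
  have key := iInf_valuationSubring_superset (K := E) (s := Set.range (algebraMap A₀ E))
  have hG : G ∈ (⨅ V : {V : ValuationSubring E // Set.range (algebraMap A₀ E) ⊆ V.toSubring},
      V.1.toSubring) := by
    rw [Subring.mem_iInf]
    rintro ⟨V, hV⟩
    exact h V (fun a => hV ⟨a, rfl⟩)
  rw [key] at hG
  have hG' : IsIntegral (Subring.closure (Set.range (algebraMap A₀ E))) G := hG
  obtain ⟨P, hPm, hP⟩ := hG'
  -- every coefficient of `P` lies in the range of `algebraMap A₀ E`
  have hcl : Subring.closure (Set.range (algebraMap A₀ E)) = (algebraMap A₀ E).range := by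
    rw [← RingHom.coe_range, Subring.closure_eq]
  have hcoe : ∀ c : Subring.closure (Set.range (algebraMap A₀ E)), ∃ a : A₀,
      algebraMap A₀ E a = (c : E) := by
    intro c
    have : (c : E) ∈ (algebraMap A₀ E).range := hcl ▸ c.2
    exact this
  choose φ hφ using hcoe
  refine ⟨Polynomial.X ^ P.natDegree +
    ∑ i ∈ Finset.range P.natDegree, Polynomial.C (φ (P.coeff i)) * Polynomial.X ^ i, ?_, ?_⟩
  · refine Polynomial.monic_X_pow_add ?_
    refine (Polynomial.degree_sum_le _ _).trans_lt ?_
    rw [Finset.sup_lt_iff (by exact WithBot.bot_lt_coe _)]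
    intro i hi
    refine (Polynomial.degree_C_mul_X_pow_le _ _).trans_lt ?_
    exact_mod_cast Finset.mem_range.mp hi
  · rw [Polynomial.eval₂_add, Polynomial.eval₂_finsetSum, Polynomial.eval₂_X_pow]
    have hP' := hP
    rw [Polynomial.eval₂_eq_sum_range, Finset.sum_range_succ, hPm.coeff_natDegree] at hP'
    simp only [map_one, one_mul] at hP'
    rw [← hP', add_comm]
    congr 1
    refine Finset.sum_congr rfl fun i _ => ?_
    rw [Polynomial.eval₂_mul, Polynomial.eval₂_C, Polynomial.eval₂_X_pow, hφ]
    rfl

end Fermat.Agent.S18.H47
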