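/-
S18 / wave 4 (helper47): Leaf C `kummer_cech`, step K5 — the abstract two-chart Čech lemma.

`B₁, B₂ ⊆ B₁₂` subalgebras of a commutative `A₀`-algebra with `B₁₂ / (B₁ + B₂)` finitely generated
over the noetherian ring `A₀`; idempotents modulo `ϖ` of `B₁` and `B₂` which agree modulo `ϖ B₁₂`
come from a common element of `B₁ ∩ B₂`.
-/
import Mathlib

set_option autoImplicit false

noncomputable section

namespace Fermat.Agent.S18.H47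

section Torsion

variable {A₀ M : Type*} [CommRing A₀] [IsNoetherianRing A₀] [AddCommGroup M] [Module A₀ M]

/-- Bounded `ϖ`-power torsion modulo `N` on `N + (finitely generated)`. -/
theorem exists_pow_smul_mem (ϖ : A₀) (N : Submodule A₀ M) (s : Finset M) :
    ∃ c : ℕ, ∀ y ∈ N ⊔ Submodule.span A₀ (s : Set M), ∀ n : ℕ, ϖ ^ n • y ∈ N →
      ϖ ^ c • y ∈ N := by
  let T : Submodule A₀ (M ⧸ N) := (Submodule.span A₀ (s : Set M)).map N.mkQ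
  have hTfg : T.FG := (Submodule.fg_span s.finite_toSet).map _
  have : IsNoetherian A₀ T := isNoetherian_of_fg_of_noetherian T hTfg
  let f : ℕ →o Submodule A₀ T :=
    ⟨fun n => LinearMap.ker ((ϖ ^ n) • (LinearMap.id : T →ₗ[A₀] T)), by
      intro a b hab z hz
      simp only [LinearMap.mem_ker, LinearMap.smul_apply, LinearMap.id_coe, id_eq] at hz ⊢
      obtain ⟨k, rfl⟩ := Nat.exists_eq_add_of_le hab
      rw [pow_add, mul_comm, mul_smul, hz, smul_zero]⟩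
  obtain ⟨c, hc⟩ := monotone_stabilizes_iff_noetherian.mpr inferInstance f
  refine ⟨c, fun y hy n hn => ?_⟩
  have hyT : N.mkQ y ∈ T := by
    obtain ⟨y₁, hy₁, y₂, hy₂, rfl⟩ := Submodule.mem_sup.mp hy
    have : N.mkQ (y₁ + y₂) = N.mkQ y₂ := by
      rw [map_add, Submodule.mkQ_apply, (Submodule.Quotient.mk_eq_zero N).mpr hy₁, zero_add]
    rw [this]
    exact Submodule.mem_map_of_mem hy₂
  have hz : (⟨N.mkQ y, hyT⟩ : T) ∈ f (max n c) := by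
    have hle : f n ≤ f (max n c) := f.monotone (le_max_left _ _)
    apply hle
    change (ϖ ^ n) • (⟨N.mkQ y, hyT⟩ : T) = 0
    apply Subtype.ext
    change ϖ ^ n • N.mkQ y = 0
    rw [← map_smul, Submodule.mkQ_apply, (Submodule.Quotient.mk_eq_zero N).mpr hn]
  rw [← hc (max n c) (le_max_right _ _)] at hz
  have hz' : (ϖ ^ c) • (⟨N.mkQ y, hyT⟩ : T) = 0 := hz
  have hz'' : ϖ ^ c • N.mkQ y = 0 := congrArg Subtype.val hz'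
  rw [← map_smul, Submodule.mkQ_apply] at hz''
  exact (Submodule.Quotient.mk_eq_zero N).mp hz''

end Torsion

section Idem

variable {A₀ B : Type*} [CommRing A₀] [CommRing B] [Algebra A₀ B]

/-- Lifting an idempotent modulo `ϖ` to an idempotent modulo `ϖ ^ (r + 1)` (Newton iteration
`x ↦ 3 x² - 2 x³`), inside a subalgebra. -/
theorem exists_idem_lift (ϖ : A₀) (B₁ : Subalgebra A₀ B) (ε : B) (hε : ε ∈ B₁)
    (hid : ∃ w ∈ B₁, ε ^ 2 - ε = ϖ • w) (r : ℕ) :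
    ∃ x ∈ B₁, (∃ w ∈ B₁, x - ε = ϖ • w) ∧ ∃ w ∈ B₁, x ^ 2 - x = ϖ ^ (r + 1) • w := by
  induction r with
  | zero =>
    obtain ⟨w, hw, h⟩ := hid
    exact ⟨ε, hε, ⟨0, B₁.zero_mem, by simp⟩, ⟨w, hw, by simpa using h⟩⟩
  | succ r ih =>
    obtain ⟨x, hx, ⟨u, hu, hxu⟩, ⟨w, hw, hxw⟩⟩ := ih
    have h3 : (3 : B) ∈ B₁ := by
      have : (3 : B) = algebraMap A₀ B 3 := (map_ofNat (algebraMap A₀ B) 3).symm
      rw [this]; exact B₁.algebraMap_mem _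
    have h2 : (2 : B) ∈ B₁ := by
      have : (2 : B) = algebraMap A₀ B 2 := (map_ofNat (algebraMap A₀ B) 2).symm
      rw [this]; exact B₁.algebraMap_mem _
    have h4 : (4 : B) ∈ B₁ := by
      have : (4 : B) = algebraMap A₀ B 4 := (map_ofNat (algebraMap A₀ B) 4).symm
      rw [this]; exact B₁.algebraMap_mem _
    have hx2 : x ^ 2 ∈ B₁ := B₁.pow_mem hx 2
    have hx3 : x ^ 3 ∈ B₁ := B₁.pow_mem hx 3
    refine ⟨3 * x ^ 2 - 2 * x ^ 3, B₁.sub_mem (B₁.mul_mem h3 hx2) (B₁.mul_mem h2 hx3),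
      ⟨u + ϖ ^ r • (-(2 * x - 1) * w), ?_, ?_⟩,
      ⟨ϖ ^ r • (w ^ 2 * (4 * x ^ 2 - 4 * x - 3)), ?_, ?_⟩⟩
    · exact B₁.add_mem hu (B₁.smul_mem (B₁.mul_mem (B₁.neg_mem
        (B₁.sub_mem (B₁.mul_mem h2 hx) B₁.one_mem)) hw) _)
    · have e1 : 3 * x ^ 2 - 2 * x ^ 3 - ε = (x - ε) + -(2 * x - 1) * (x ^ 2 - x) := by ring
      rw [e1, hxu, hxw]
      simp only [Algebra.smul_def, map_pow]
      ring
    · exact B₁.smul_mem (B₁.mul_mem (B₁.pow_mem hw 2) (B₁.sub_mem (B₁.sub_mem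
        (B₁.mul_mem h4 hx2) (B₁.mul_mem h4 hx)) h3)) _
    · have e1 : (3 * x ^ 2 - 2 * x ^ 3) ^ 2 - (3 * x ^ 2 - 2 * x ^ 3) =
          (x ^ 2 - x) ^ 2 * (4 * x ^ 2 - 4 * x - 3) := by ring
      rw [e1, hxw]
      simp only [Algebra.smul_def, map_pow]
      ring

/-- Two idempotents modulo `ϖ ^ r` which are congruent modulo `ϖ` are congruent modulo `ϖ ^ r`. -/
theorem idem_unique (ϖ : A₀) (B' : Subalgebra A₀ B) (x₁ x₂ : B) (hx₁ : x₁ ∈ B') (hx₂ : x₂ ∈ B')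
    (r : ℕ) (h₁ : ∃ w ∈ B', x₁ ^ 2 - x₁ = ϖ ^ r • w) (h₂ : ∃ w ∈ B', x₂ ^ 2 - x₂ = ϖ ^ r • w)
    (h : ∃ v ∈ B', x₁ - x₂ = ϖ • v) : ∃ y ∈ B', x₁ - x₂ = ϖ ^ r • y := by
  obtain ⟨w₁, hw₁, e₁⟩ := h₁
  obtain ⟨w₂, hw₂, e₂⟩ := h₂
  obtain ⟨v, hv, e⟩ := h
  have h3 : (3 : B) ∈ B' := by
    have : (3 : B) = algebraMap A₀ B 3 := (map_ofNat (algebraMap A₀ B) 3).symm
    rw [this]; exact B'.algebraMap_mem _
  set d := x₁ - x₂ with hd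
  set m := w₁ * (1 + x₁ - 3 * x₂) - w₂ * (1 + x₂ - 3 * x₁) with hm
  have hmB : m ∈ B' := B'.sub_mem
    (B'.mul_mem hw₁ (B'.sub_mem (B'.add_mem B'.one_mem hx₁) (B'.mul_mem h3 hx₂)))
    (B'.mul_mem hw₂ (B'.sub_mem (B'.add_mem B'.one_mem hx₂) (B'.mul_mem h3 hx₁)))
  have hdB : d ∈ B' := B'.sub_mem hx₁ hx₂
  have key : d ^ 3 - d = ϖ ^ r • m := by
    have e3 : d ^ 3 - d = (x₁ ^ 2 - x₁) * (1 + x₁ - 3 * x₂) - (x₂ ^ 2 - x₂) * (1 + x₂ - 3 * x₁) := by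
      rw [hd]; ring
    rw [e3, e₁, e₂, hm]
    simp only [Algebra.smul_def, map_pow]
    ring
  have hgeom : (∑ k ∈ Finset.range r, (d ^ 2) ^ k) * (d ^ 2 - 1) = (d ^ 2) ^ r - 1 :=
    geom_sum_mul _ _
  refine ⟨-(m * ∑ k ∈ Finset.range r, (d ^ 2) ^ k) + ϖ ^ (r + 1) • v ^ (2 * r + 1), ?_, ?_⟩
  · refine B'.add_mem (B'.neg_mem (B'.mul_mem hmB (B'.sum_mem fun k _ => ?_))) (B'.smul_mem
      (B'.pow_mem hv _) _)
    exact B'.pow_mem (B'.pow_mem hdB 2) k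
  · have e5 : d = -((d ^ 3 - d) * ∑ k ∈ Finset.range r, (d ^ 2) ^ k) + d ^ (2 * r + 1) := by
      have : (d ^ 3 - d) * ∑ k ∈ Finset.range r, (d ^ 2) ^ k =
          d * ((∑ k ∈ Finset.range r, (d ^ 2) ^ k) * (d ^ 2 - 1)) := by ring
      rw [this, hgeom, ← pow_mul, pow_succ]; ring
    have e6 : d ^ (2 * r + 1) = ϖ ^ r • (ϖ ^ (r + 1) • v ^ (2 * r + 1)) := by
      rw [e]
      simp only [Algebra.smul_def, map_pow]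
      ring
    calc d = -((d ^ 3 - d) * ∑ k ∈ Finset.range r, (d ^ 2) ^ k) + d ^ (2 * r + 1) := e5
      _ = ϖ ^ r • (-(m * ∑ k ∈ Finset.range r, (d ^ 2) ^ k) + ϖ ^ (r + 1) • v ^ (2 * r + 1)) := by
        rw [key, e6]
        simp only [Algebra.smul_def, map_pow]
        ring

end Idem

/-- **K5: the abstract two-chart Čech lemma.** -/
theorem cech_lift {A₀ B : Type*} [CommRing A₀] [IsNoetherianRing A₀] [CommRing B] [Algebra A₀ B]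
    (ϖ : A₀) (B₁ B₂ B₁₂ : Subalgebra A₀ B) (h1 : B₁ ≤ B₁₂) (h2 : B₂ ≤ B₁₂) (s : Finset B)
    (hs : Subalgebra.toSubmodule B₁₂ ≤
      Subalgebra.toSubmodule B₁ ⊔ Subalgebra.toSubmodule B₂ ⊔ Submodule.span A₀ (s : Set B))
    (ε₁ ε₂ : B) (h₁ : ε₁ ∈ B₁) (h₂ : ε₂ ∈ B₂)
    (hid₁ : ∃ w ∈ B₁, ε₁ ^ 2 - ε₁ = ϖ • w) (hid₂ : ∃ w ∈ B₂, ε₂ ^ 2 - ε₂ = ϖ • w)
    (h12 : ∃ w ∈ B₁₂, ε₁ - ε₂ = ϖ • w) :
    ∃ G : B, G ∈ B₁ ∧ G ∈ B₂ ∧ ∃ w ∈ B₁, G - ε₁ = ϖ • w := by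
  obtain ⟨c, hc⟩ := exists_pow_smul_mem ϖ
    (Subalgebra.toSubmodule B₁ ⊔ Subalgebra.toSubmodule B₂) s
  obtain ⟨x₁, hx₁, ⟨u₁, hu₁, hxu₁⟩, ⟨w₁, hw₁, hxw₁⟩⟩ := exists_idem_lift ϖ B₁ ε₁ h₁ hid₁ c
  obtain ⟨x₂, hx₂, ⟨u₂, hu₂, hxu₂⟩, ⟨w₂, hw₂, hxw₂⟩⟩ := exists_idem_lift ϖ B₂ ε₂ h₂ hid₂ c
  obtain ⟨w, hw, hε⟩ := h12
  have hcong : ∃ v ∈ B₁₂, x₁ - x₂ = ϖ • v := by
    refine ⟨u₁ + w - u₂, B₁₂.sub_mem (B₁₂.add_mem (h1 hu₁) hw) (h2 hu₂), ?_⟩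
    have : x₁ - x₂ = (x₁ - ε₁) + (ε₁ - ε₂) - (x₂ - ε₂) := by ring
    rw [this, hxu₁, hε, hxu₂, smul_sub, smul_add]
  obtain ⟨y, hy, hxy⟩ := idem_unique ϖ B₁₂ x₁ x₂ (h1 hx₁) (h2 hx₂) (c + 1)
    ⟨w₁, h1 hw₁, hxw₁⟩ ⟨w₂, h2 hw₂, hxw₂⟩ hcong
  have hyN : ϖ ^ c • y ∈ Subalgebra.toSubmodule B₁ ⊔ Subalgebra.toSubmodule B₂ := by
    refine hc y (hs hy) (c + 1) ?_
    rw [← hxy]
    exact Submodule.sub_mem _ (Submodule.mem_sup_left hx₁) (Submodule.mem_sup_right hx₂)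
  obtain ⟨b₁, hb₁, b₂, hb₂, hb⟩ := Submodule.mem_sup.mp hyN
  have hb₁' : b₁ ∈ B₁ := hb₁
  have hb₂' : b₂ ∈ B₂ := hb₂
  have hx12 : x₁ - x₂ = ϖ • b₁ + ϖ • b₂ := by
    rw [hxy, pow_succ, mul_comm, mul_smul, ← hb, smul_add]
  refine ⟨x₁ - ϖ • b₁, B₁.sub_mem hx₁ (B₁.smul_mem hb₁' _), ?_, ⟨u₁ - b₁, B₁.sub_mem hu₁ hb₁', ?_⟩⟩
  · have : x₁ - ϖ • b₁ = x₂ + ϖ • b₂ := by
      have : x₁ = x₂ + (ϖ • b₁ + ϖ • b₂) := by rw [← hx12]; ring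
      rw [this]; ring
    rw [this]
    exact B₂.add_mem hx₂ (B₂.smul_mem hb₂' _)
  · have : x₁ - ϖ • b₁ - ε₁ = (x₁ - ε₁) - ϖ • b₁ := by ring
    rw [this, hxu₁, smul_sub]

end Fermat.Agent.S18.H47
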