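/-
S18 / wave 4 (helper47): Leaf C `kummer_cech` — finiteness plumbing (P1, P4):
a chart which is a finite module over `A₀[j]` is noetherian and integral over `A₀[j]`, and its
integral closure in a finite separable extension is spanned over `A₀[j]` by finitely many
integral elements.
-/
import Fermat.Agent.S18.H47.Loc

set_option autoImplicit false

open Polynomial

noncomputable section

namespace Fermat.Agent.S18.H47

variable {A₀ : Type*} [CommRing A₀] {F : Type*} [Field F] [Algebra A₀ F]

/-- P1. A chart which is a finite module over `A₀[j]` is a noetherian ring, integral over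
`A₀[j]`. -/
theorem noeth_and_integral [IsNoetherianRing A₀] (j : F) (C : Subalgebra A₀ F) (hj : j ∈ C)
    (hfin : ∃ s : Finset F, (C : Set F) =
      Submodule.span (Algebra.adjoin A₀ ({j} : Set F)) (s : Set F)) :
    IsNoetherianRing ↥C ∧ ∀ c ∈ C, IsIntegral (Algebra.adjoin A₀ ({j} : Set F)) c := by
  classical
  obtain ⟨s, hs⟩ := hfin
  have hle : Algebra.adjoin A₀ ({j} : Set F) ≤ C :=
    Algebra.adjoin_le (Set.singleton_subset_iff.mpr hj)
  have hmem : ∀ y : F, y ∈ C ↔ y ∈ Submodule.span (Algebra.adjoin A₀ ({j} : Set F)) (s : Set F) :=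
    fun y => by
      have := congrArg (fun S : Set F => y ∈ S) hs
      simpa using this
  have hsC : ∀ y ∈ s, y ∈ C := fun y hy => (hmem y).mpr (Submodule.subset_span hy)
  refine ⟨?_, ?_⟩
  · -- `C` is a finitely generated `A₀`-algebra
    refine isNoetherianRing_of_fg ⟨insert j s, le_antisymm ?_ ?_⟩
    · refine Algebra.adjoin_le ?_
      intro y hy
      rw [Finset.coe_insert, Set.mem_insert_iff] at hy
      rcases hy with rfl | hy
      · exact hj
      · exact hsC y hy
    · have hspan : ∀ y : F, y ∈ Submodule.span (Algebra.adjoin A₀ ({j} : Set F)) (s : Set F) →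
          y ∈ Algebra.adjoin A₀ ((insert j s : Finset F) : Set F) := by
        intro y hy'
        induction hy' using Submodule.span_induction with
        | mem x hx =>
          exact Algebra.subset_adjoin (by rw [Finset.coe_insert]; exact Set.mem_insert_of_mem _ hx)
        | zero => exact Subalgebra.zero_mem _
        | add x z _ _ hx hz => exact Subalgebra.add_mem _ hx hz
        | smul r x _ hx =>
          have hr : (r : F) ∈ Algebra.adjoin A₀ ((insert j s : Finset F) : Set F) := by
            refine Algebra.adjoin_mono ?_ r.2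
            rw [Finset.coe_insert]
            exact Set.singleton_subset_iff.mpr (Set.mem_insert _ _)
          exact Subalgebra.mul_mem _ hr hx
      intro y hy
      exact hspan y ((hmem y).mp hy)
  · -- integrality over `A₀[j]`
    let C' : Subalgebra (Algebra.adjoin A₀ ({j} : Set F)) F :=
      { C.toSubsemiring with
        algebraMap_mem' := fun r => hle r.2 }
    have hC' : ∀ y : F, y ∈ C' ↔ y ∈ C := fun y => Iff.rfl
    have hFG : (Subalgebra.toSubmodule C').FG := by
      refine ⟨s, ?_⟩
      ext y
      rw [Subalgebra.mem_toSubmodule, hC', hmem]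
    intro c hc
    exact IsIntegral.of_mem_of_fg C' hFG c ((hC' c).mpr hc)

/-- P4. The integral closure of a chart in a finite separable extension is spanned over `A₀[j]`
by finitely many integral elements. -/
theorem exists_finset_span_integralClosure (j : F) (C : Subalgebra A₀ F)
    [IsIntegrallyClosed ↥C] [IsNoetherianRing ↥C]
    (hfrac : ∀ x : F, ∃ a ∈ C, ∃ b ∈ C, b ≠ 0 ∧ x = a / b)
    (hfin : ∃ s : Finset F, (C : Set F) =
      Submodule.span (Algebra.adjoin A₀ ({j} : Set F)) (s : Set F))
    {E : Type*} [Field E] [Algebra F E] [Algebra A₀ E] [IsScalarTower A₀ F E]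
    [FiniteDimensional F E] [Algebra.IsSeparable F E] :
    ∃ s : Finset E, (∀ b ∈ s, IsIntegral ↥C b) ∧ ∀ y : E, IsIntegral ↥C y →
      y ∈ Submodule.span (Algebra.adjoin A₀ ({algebraMap F E j} : Set E)) (s : Set E) := by
  classical
  obtain ⟨s₀, hs₀⟩ := hfin
  have hmem : ∀ y : F, y ∈ C ↔
      y ∈ Submodule.span (Algebra.adjoin A₀ ({j} : Set F)) (s₀ : Set F) := fun y => by
    have := congrArg (fun S : Set F => y ∈ S) hs₀
    simpa using this
  have hs₀C : ∀ y ∈ s₀, y ∈ C := fun y hy => (hmem y).mpr (Submodule.subset_span hy)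
  have hCfr : IsFractionRing ↥C F := isFractionRing_of_frac C hfrac
  have hfinite : Module.Finite ↥C ↥(integralClosure ↥C E) :=
    IsIntegralClosure.finite ↥C F E ↥(integralClosure ↥C E)
  obtain ⟨t, ht⟩ := hfinite.fg_top
  -- the finite set of products
  refine ⟨(s₀ ×ˢ t).image (fun cb => cb.1 • (cb.2 : E)), ?_, ?_⟩
  · intro b hb
    obtain ⟨⟨c, β⟩, hcb, rfl⟩ := Finset.mem_image.mp hb
    have hc : c ∈ C := hs₀C c (Finset.mem_product.mp hcb).1
    have : c • (β : E) = (⟨c, hc⟩ : ↥C) • (β : E) := rfl
    rw [this]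
    exact IsIntegral.smul _ β.2
  · intro y hy
    set S := Submodule.span (Algebra.adjoin A₀ ({algebraMap F E j} : Set E))
      (((s₀ ×ˢ t).image (fun cb => cb.1 • (cb.2 : E)) : Finset E) : Set E) with hS
    -- elements of `A₀[j]` act through `A₀[j']`
    have hadj : ∀ r : F, r ∈ Algebra.adjoin A₀ ({j} : Set F) →
        algebraMap F E r ∈ Algebra.adjoin A₀ ({algebraMap F E j} : Set E) := by
      intro r hr
      have h1 : (IsScalarTower.toAlgHom A₀ F E) r ∈
          (Algebra.adjoin A₀ ({j} : Set F)).map (IsScalarTower.toAlgHom A₀ F E) :=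
        Subalgebra.mem_map.mpr ⟨r, hr, rfl⟩
      rw [AlgHom.map_adjoin, Set.image_singleton] at h1
      exact h1
    -- `γ • β ∈ S` for `γ ∈ C`, `β ∈ t`
    have hγβ' : ∀ γ : F, γ ∈ Submodule.span (Algebra.adjoin A₀ ({j} : Set F)) (s₀ : Set F) →
        ∀ β ∈ t, γ • (β : E) ∈ S := by
      intro γ hγ' β hβ
      induction hγ' using Submodule.span_induction with
      | mem c hc =>
        exact Submodule.subset_span (Finset.mem_coe.mpr (Finset.mem_image.mpr
          ⟨(c, β), Finset.mem_product.mpr ⟨hc, hβ⟩, rfl⟩))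
      | zero => rw [zero_smul]; exact S.zero_mem
      | add x z _ _ hx hz => rw [add_smul]; exact S.add_mem hx hz
      | smul r x _ hx =>
        have h2 : (r • x) • (β : E) =
            (⟨algebraMap F E (r : F), hadj r r.2⟩ :
              Algebra.adjoin A₀ ({algebraMap F E j} : Set E)) • (x • (β : E)) := by
          change ((r : F) * x) • (β : E) = algebraMap F E (r : F) * (x • (β : E))
          rw [mul_smul, Algebra.smul_def (r : F)]
        rw [h2]
        exact S.smul_mem _ hx
    have hγβ : ∀ γ : F, γ ∈ C → ∀ β ∈ t, γ • (β : E) ∈ S := fun γ hγ β hβ =>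
      hγβ' γ ((hmem γ).mp hγ) β hβ
    have key : ∀ z : ↥(integralClosure ↥C E),
        z ∈ Submodule.span ↥C (t : Set ↥(integralClosure ↥C E)) →
        ∀ γ : F, γ ∈ C → γ • (z : E) ∈ S := by
      intro z hz
      induction hz using Submodule.span_induction with
      | mem β hβ => exact fun γ hγ => hγβ γ hγ β (Finset.mem_coe.mp hβ)
      | zero => intro γ _; rw [ZeroMemClass.coe_zero, smul_zero]; exact S.zero_mem
      | add x z _ _ hx hz =>
        intro γ hγ
        rw [AddMemClass.coe_add, smul_add]
        exact S.add_mem (hx γ hγ) (hz γ hγ)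
      | smul γ' x _ ih =>
        intro γ hγ
        have h3 : γ • ((γ' • x : ↥(integralClosure ↥C E)) : E) = (γ * (γ' : F)) • (x : E) := by
          rw [mul_smul]
          rfl
        rw [h3]
        exact ih _ (C.mul_mem hγ γ'.2)
    have hy' : (⟨y, hy⟩ : ↥(integralClosure ↥C E)) ∈
        Submodule.span ↥C (t : Set ↥(integralClosure ↥C E)) := by
      rw [ht]
      exact Submodule.mem_top
    have := key _ hy' 1 C.one_mem
    rwa [one_smul] at this

end Fermat.Agent.S18.H47
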