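/-
S18 / wave 4 (helper47): Leaf C `kummer_cech` — small glue lemmas for the assembly:
prime elements from the quotient, the two charts inside `C₁[1/j]`, transfer of one-units between
the charts, the idempotent `ε̃ = p⁻¹ ∑ g^i` modulo `ϖ`.
-/
import Fermat.Agent.S18.H47.LocalIdem

set_option autoImplicit false

open Polynomial

noncomputable section

namespace Fermat.Agent.S18.H47

variable {A₀ : Type*} [CommRing A₀] {F : Type*} [Field F] [Algebra A₀ F]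

/-- `ϖ` is a prime element of `C` when `C / ϖ` is a domain. -/
theorem isPrimeElt_of_isDomain (ϖ : A₀) (C : Subalgebra A₀ F)
    (hdom : IsDomain (↥C ⧸ Ideal.span {algebraMap A₀ ↥C ϖ})) : IsPrimeElt ϖ C := by
  have hpr : (Ideal.span {algebraMap A₀ ↥C ϖ}).IsPrime :=
    (Ideal.Quotient.isDomain_iff_prime _).mp hdom
  refine ⟨?_, ?_⟩
  · intro h
    have h1 := (dv_iff_dvd (1 : ↥C)).mp h
    apply hpr.ne_top
    rw [Ideal.eq_top_iff_one, Ideal.mem_span_singleton]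
    exact h1
  · intro a ha b hb hab
    have h1 : algebraMap A₀ ↥C ϖ ∣ (⟨a, ha⟩ * ⟨b, hb⟩ : ↥C) :=
      (dv_iff_dvd (⟨a, ha⟩ * ⟨b, hb⟩ : ↥C)).mp hab
    rw [← Ideal.mem_span_singleton] at h1
    rcases hpr.mem_or_mem h1 with h | h
    · exact Or.inl ((dv_iff_dvd (⟨a, ha⟩ : ↥C)).mpr (Ideal.mem_span_singleton.mp h))
    · exact Or.inr ((dv_iff_dvd (⟨b, hb⟩ : ↥C)).mpr (Ideal.mem_span_singleton.mp h))

/-- Both charts lie in `C₁[1/j]`. -/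
theorem exists_pow_mul_mem_of_mem_sup (C₁ C₂ : Subalgebra A₀ F) (j : F) (hj₁ : j ∈ C₁)
    (h₂ : ∀ y ∈ C₂, ∃ n : ℕ, j ^ n * y ∈ C₁) :
    ∀ y ∈ C₁ ⊔ C₂, ∃ n : ℕ, j ^ n * y ∈ C₁ := by
  let L : Subalgebra A₀ F :=
    { carrier := {y | ∃ n : ℕ, j ^ n * y ∈ C₁}
      mul_mem' := by
        rintro y z ⟨n, hn⟩ ⟨m, hm⟩
        refine ⟨n + m, ?_⟩
        have : j ^ (n + m) * (y * z) = (j ^ n * y) * (j ^ m * z) := by ring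
        rw [this]
        exact C₁.mul_mem hn hm
      add_mem' := by
        rintro y z ⟨n, hn⟩ ⟨m, hm⟩
        refine ⟨n + m, ?_⟩
        have : j ^ (n + m) * (y + z) = j ^ m * (j ^ n * y) + j ^ n * (j ^ m * z) := by ring
        rw [this]
        exact C₁.add_mem (C₁.mul_mem (C₁.pow_mem hj₁ m) hn) (C₁.mul_mem (C₁.pow_mem hj₁ n) hm)
      algebraMap_mem' := fun r => ⟨0, by simp⟩ }
  have hL₁ : C₁ ≤ L := fun y hy => ⟨0, by simpa using hy⟩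
  have hL₂ : C₂ ≤ L := fun y hy => h₂ y hy
  intro y hy
  exact (sup_le hL₁ hL₂) hy

/-- Integral elements over `C₁ ⊔ C₂` become integral over `C₁` after multiplication by a power
of `j`. -/
theorem exists_pow_smul_isIntegral (C₁ C₂ : Subalgebra A₀ F) (j : F) (hj₁ : j ∈ C₁)
    (h₂ : ∀ y ∈ C₂, ∃ n : ℕ, j ^ n * y ∈ C₁)
    {E : Type*} [CommRing E] [Algebra F E] (y : E) (hy : IsIntegral ↥(C₁ ⊔ C₂) y) :
    ∃ n : ℕ, IsIntegral ↥C₁ (j ^ n • y) := by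
  obtain ⟨c, ⟨n, rfl⟩, hc⟩ := exists_smul_isIntegral C₁ (C₁ ⊔ C₂) le_sup_left
    {c | ∃ n : ℕ, c = j ^ n} ⟨0, by simp⟩
    (by rintro a ⟨n, rfl⟩ b ⟨m, rfl⟩; exact ⟨n + m, by rw [pow_add]⟩)
    (by rintro a ⟨n, rfl⟩; exact C₁.pow_mem hj₁ n)
    (fun y hy => by
      obtain ⟨n, hn⟩ := exists_pow_mul_mem_of_mem_sup C₁ C₂ j hj₁ h₂ y hy
      exact ⟨j ^ n, ⟨n, rfl⟩, by rwa [mul_comm]⟩) y hy
  exact ⟨n, hc⟩

/-- Transfer of the one-unit presentation of `f` from `C₁` to `C₂`. -/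
theorem oneUnit_transfer (ϖ : A₀) (C₁ C₂ O : Subalgebra A₀ F) (hp₁ : IsPrimeElt ϖ C₁)
    (hloc₁ : IsLocAt ϖ C₁ O) (hloc₂ : IsLocAt ϖ C₂ O) (j : F) (hj₁ : j ∈ C₁) (hj₂ : j⁻¹ ∈ C₂)
    (hj0 : j ≠ 0) (h₁ : ∀ y ∈ C₁, ∃ n : ℕ, j⁻¹ ^ n * y ∈ C₂) (f : F)
    (hf : ∃ a ∈ C₁, ∃ b ∈ C₁, ¬ Dv ϖ C₁ b ∧ Dv ϖ C₁ (a - b) ∧ f * b = a) :
    ∃ a ∈ C₂, ∃ b ∈ C₂, ¬ Dv ϖ C₂ b ∧ Dv ϖ C₂ (a - b) ∧ f * b = a := by
  obtain ⟨a, ha, b, hb, hnb, ⟨d, hd, hab⟩, hfab⟩ := hf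
  obtain ⟨n₁, hn₁⟩ := h₁ a ha
  obtain ⟨n₂, hn₂⟩ := h₁ b hb
  obtain ⟨n₃, hn₃⟩ := h₁ d hd
  have hup : ∀ (y : F) (n m : ℕ), j⁻¹ ^ n * y ∈ C₂ → j⁻¹ ^ (n + m) * y ∈ C₂ := by
    intro y n m h
    have : j⁻¹ ^ (n + m) * y = j⁻¹ ^ m * (j⁻¹ ^ n * y) := by ring
    rw [this]
    exact C₂.mul_mem (C₂.pow_mem hj₂ m) h
  set N := n₁ + n₂ + n₃ with hN
  have hA : j⁻¹ ^ N * a ∈ C₂ := by
    have := hup a n₁ (n₂ + n₃) hn₁
    rwa [← add_assoc] at this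
  have hB : j⁻¹ ^ N * b ∈ C₂ := by
    have := hup b n₂ (n₁ + n₃) hn₂
    have e : n₂ + (n₁ + n₃) = N := by omega
    rwa [e] at this
  have hD : j⁻¹ ^ N * d ∈ C₂ := by
    have := hup d n₃ (n₁ + n₂) hn₃
    have e : n₃ + (n₁ + n₂) = N := by omega
    rwa [e] at this
  refine ⟨j⁻¹ ^ N * a, hA, j⁻¹ ^ N * b, hB, ?_, ⟨j⁻¹ ^ N * d, hD, ?_⟩, ?_⟩
  · rintro ⟨e, he, hbe⟩
    apply hnb
    refine hloc₁.dv_of_smul hp₁ hb (o := j ^ N * e)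
      (O.mul_mem (hloc₁.le (C₁.pow_mem hj₁ N)) (hloc₂.le he)) ?_
    rw [← mul_smul_comm, ← hbe, ← mul_assoc, ← mul_pow, mul_inv_cancel₀ hj0, one_pow, one_mul]
  · rw [← mul_sub, hab, mul_smul_comm]
  · rw [← hfab]
    ring

/-- `a ∉ ϖ C` for the numerator of a one-unit. -/
theorem oneUnit_num_not_dv {ϖ : A₀} {C : Subalgebra A₀ F} {f : F}
    (hf : ∃ a ∈ C, ∃ b ∈ C, ¬ Dv ϖ C b ∧ Dv ϖ C (a - b) ∧ f * b = a) :
    ∃ a ∈ C, ∃ b ∈ C, ¬ Dv ϖ C a ∧ ¬ Dv ϖ C b ∧ f * b = a := by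
  obtain ⟨a, ha, b, hb, hnb, hab, hfab⟩ := hf
  refine ⟨a, ha, b, hb, fun h => hnb ?_, hnb, hfab⟩
  have : b = a - (a - b) := by ring
  rw [this]
  exact h.sub hab

/-- `f⁻¹ ∈ O` for a one-unit `f`. -/
theorem inv_mem_loc_of_oneUnit {ϖ : A₀} {C O : Subalgebra A₀ F} (hloc : IsLocAt ϖ C O) {f : F}
    (hf : ∃ a ∈ C, ∃ b ∈ C, ¬ Dv ϖ C b ∧ Dv ϖ C (a - b) ∧ f * b = a) : f⁻¹ ∈ O := by
  obtain ⟨a, ha, b, hb, hna, hnb, hfab⟩ := oneUnit_num_not_dv hf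
  have hb0 : b ≠ 0 := by
    rintro rfl
    exact hnb ⟨0, C.zero_mem, by simp⟩
  have ha0 : a ≠ 0 := by
    rintro rfl
    exact hna ⟨0, C.zero_mem, by simp⟩
  have hf0 : f ≠ 0 := by
    rintro rfl
    rw [zero_mul] at hfab
    exact ha0 hfab.symm
  have : f⁻¹ = b * a⁻¹ := by
    rw [← hfab]
    field_simp
  rw [this]
  exact O.mul_mem (hloc.le hb) (hloc.inv_mem a ha hna)

/-- `f - 1 ∈ ϖ O` for a one-unit `f`. -/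
theorem sub_one_mem_of_oneUnit {ϖ : A₀} {C O : Subalgebra A₀ F} (hloc : IsLocAt ϖ C O) {f : F}
    (hf : ∃ a ∈ C, ∃ b ∈ C, ¬ Dv ϖ C b ∧ Dv ϖ C (a - b) ∧ f * b = a) :
    ∃ o ∈ O, f - 1 = ϖ • o := by
  obtain ⟨a₀, ha₀, b₀, hb₀, hnb₀, ⟨d₀, hd₀, hab₀⟩, hfa₀⟩ := hf
  have hb₀0 : b₀ ≠ 0 := by
    rintro rfl
    exact hnb₀ ⟨0, C.zero_mem, by simp⟩
  refine ⟨d₀ * b₀⁻¹, O.mul_mem (hloc.le hd₀) (hloc.inv_mem b₀ hb₀ hnb₀), ?_⟩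
  have : f = a₀ * b₀⁻¹ := by rw [← hfa₀]; field_simp
  rw [this, ← smul_mul_assoc, ← hab₀]
  field_simp

/-- `ε̃ = p⁻¹ ∑ g^i` is an idempotent modulo `ϖ S`. -/
theorem eps_sq_sub {ϖ : A₀} {C O : Subalgebra A₀ F} (hloc : IsLocAt ϖ C O)
    (p : ℕ) (hp0 : p ≠ 0) (hpu : IsUnit (p : A₀))
    (f : F) (hf : ∃ a ∈ C, ∃ b ∈ C, ¬ Dv ϖ C b ∧ Dv ϖ C (a - b) ∧ f * b = a)
    {E : Type*} [Field E] [Algebra F E] [Algebra A₀ E] [IsScalarTower A₀ F E]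
    (g : E) (hg : g ^ p = algebraMap F E f) :
    ∃ s₀ : E, IsIntegral ↥O s₀ ∧
      ((p : E)⁻¹ * ∑ i ∈ Finset.range p, g ^ i) ^ 2 - (p : E)⁻¹ * ∑ i ∈ Finset.range p, g ^ i =
        ϖ • s₀ := by
  have hfO : f ∈ O := mem_loc_of_oneUnit hloc hf
  have hgint : IsIntegral ↥O g := by
    refine ⟨X ^ p - Polynomial.C ⟨f, hfO⟩, monic_X_pow_sub_C _ hp0, ?_⟩
    rw [eval₂_sub, eval₂_X_pow, eval₂_C, hg]
    exact sub_self _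
  obtain ⟨o₁, ho₁, hf1⟩ := sub_one_mem_of_oneUnit hloc hf
  obtain ⟨pu, hpu'⟩ := hpu
  set pinv : F := algebraMap A₀ F ((pu⁻¹ : A₀ˣ) : A₀) with hpinv
  have hpinvO : pinv ∈ O := O.algebraMap_mem _
  have hpE1 : (p : E) * algebraMap F E pinv = 1 := by
    rw [hpinv, ← IsScalarTower.algebraMap_apply, ← map_natCast (algebraMap A₀ E) p, ← map_mul,
      ← hpu', Units.mul_inv, map_one]
  have hpE : ((p : E))⁻¹ = algebraMap F E pinv := inv_eq_of_mul_eq_one_right hpE1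
  have hpE0 : (p : E) ≠ 0 := left_ne_zero_of_mul_eq_one hpE1
  set S := ∑ i ∈ Finset.range p, g ^ i with hS
  set T := ∑ i ∈ Finset.range p, ∑ k ∈ Finset.range i, g ^ k with hT
  have hTint : IsIntegral ↥O T :=
    IsIntegral.sum _ fun i _ => IsIntegral.sum _ fun k _ => hgint.pow k
  have h1 : (g - 1) * S = algebraMap F E (f - 1) := by
    rw [hS, mul_geom_sum, hg, map_sub, map_one]
  have h2 : S - (p : E) = (g - 1) * T := by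
    rw [hT, Finset.mul_sum]
    have : ∀ i ∈ Finset.range p, (g - 1) * ∑ k ∈ Finset.range i, g ^ k = g ^ i - 1 :=
      fun i _ => mul_geom_sum g i
    rw [Finset.sum_congr rfl this, Finset.sum_sub_distrib, Finset.sum_const, Finset.card_range,
      nsmul_eq_mul, mul_one]
  refine ⟨(pinv * pinv * o₁) • T, isIntegral_smul_of_mem
    (O.mul_mem (O.mul_mem hpinvO hpinvO) ho₁) hTint, ?_⟩
  have e1 : ((p : E)⁻¹ * S) ^ 2 - (p : E)⁻¹ * S =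
      (p : E)⁻¹ * (p : E)⁻¹ * (((g - 1) * S) * T) := by
    have : ((p : E)⁻¹ * S) ^ 2 - (p : E)⁻¹ * S = (p : E)⁻¹ * (p : E)⁻¹ * (S * (S - (p : E))) := by
      field_simp
    rw [this, h2]
    ring
  rw [e1, h1, hpE, hf1, Algebra.smul_def ϖ o₁, Algebra.smul_def ϖ,
    Algebra.smul_def (pinv * pinv * o₁) T]
  simp only [map_mul, ← IsScalarTower.algebraMap_apply A₀ F E]
  ring

end Fermat.Agent.S18.H47
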