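/-
S18 / wave 4 (helper47): Leaf C `kummer_cech`, step K3 — saturation:
an element integral over `O = C_(ϖ)` whose `ϖ`-multiple is integral over `C` is integral over `C`
(`B ∩ ϖ S = ϖ B`).
-/
import Fermat.Agent.S18.H47.Loc

set_option autoImplicit false

open Polynomial

noncomputable section

namespace Fermat.Agent.S18.H47

/-- The minimal polynomial of `c • y` is the root-scaled minimal polynomial of `y`. -/
theorem minpoly_smul_eq_scaleRoots {F E : Type*} [Field F] [Field E] [Algebra F E] (c : F)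
    (hc : c ≠ 0) (y : E) (hy : IsIntegral F y) :
    minpoly F (c • y) = (minpoly F y).scaleRoots c := by
  symm
  refine minpoly.unique F (c • y) ((monic_scaleRoots_iff c).mpr (minpoly.monic hy)) ?_ ?_
  · rw [Algebra.smul_def]
    exact scaleRoots_aeval_eq_zero (minpoly.aeval F y)
  · intro q hq hq0
    rw [degree_scaleRoots]
    have h1 : aeval y (q.scaleRoots c⁻¹) = 0 := by
      have := scaleRoots_aeval_eq_zero (r := c⁻¹) hq0
      rwa [← Algebra.smul_def, smul_smul, inv_mul_cancel₀ hc, one_smul] at this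
    have h2 := minpoly.min F y ((monic_scaleRoots_iff c⁻¹).mpr hq) h1
    rwa [degree_scaleRoots] at h2

variable {A₀ : Type*} [CommRing A₀] {F : Type*} [Field F] [Algebra A₀ F]

/-- **K3 (saturation).** -/
theorem saturation (ϖ : A₀) (C O : Subalgebra A₀ F) [IsIntegrallyClosed ↥C]
    (hfrac : ∀ x : F, ∃ a ∈ C, ∃ b ∈ C, b ≠ 0 ∧ x = a / b)
    (hprime : IsPrimeElt ϖ C) (hloc : IsLocAt ϖ C O) (hϖ0 : algebraMap A₀ F ϖ ≠ 0)
    {E : Type*} [Field E] [Algebra F E] [Algebra A₀ E] [IsScalarTower A₀ F E]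
    [Algebra.IsAlgebraic F E]
    (y : E) (hy : IsIntegral ↥O y) (hϖy : IsIntegral ↥C (ϖ • y)) : IsIntegral ↥C y := by
  have hCfr : IsFractionRing ↥C F := isFractionRing_of_frac C hfrac
  obtain ⟨c, hcC, hcn, hc⟩ := hloc.exists_smul_isIntegral hprime y hy
  have hc0 : c ≠ 0 := by
    rintro rfl
    exact hcn ⟨0, C.zero_mem, by simp⟩
  have hyF : IsIntegral F y := (Algebra.IsAlgebraic.isAlgebraic y).isIntegral
  set m := minpoly F y with hm
  set d := m.natDegree with hd
  -- coefficients of the minimal polynomial of `c • y`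
  have h1 : ∀ k, m.coeff k * c ^ (d - k) ∈ C := by
    intro k
    have e1 := minpoly.isIntegrallyClosed_eq_field_fractions' F hc
    rw [minpoly_smul_eq_scaleRoots c hc0 y hyF] at e1
    have e2 := congrArg (fun P => P.coeff k) e1
    simp only [coeff_scaleRoots, coeff_map] at e2
    rw [← hm, ← hd] at e2
    rw [e2]
    exact (coeff (minpoly ↥C (c • y)) k).2
  -- coefficients of the minimal polynomial of `ϖ • y`
  have h2 : ∀ k, m.coeff k * algebraMap A₀ F ϖ ^ (d - k) ∈ C := by
    intro k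
    have hϖy' : IsIntegral ↥C (algebraMap A₀ F ϖ • y) := by rwa [algebraMap_smul]
    have e1 := minpoly.isIntegrallyClosed_eq_field_fractions' F hϖy'
    rw [minpoly_smul_eq_scaleRoots _ hϖ0 y hyF] at e1
    have e2 := congrArg (fun P => P.coeff k) e1
    simp only [coeff_scaleRoots, coeff_map] at e2
    rw [← hm, ← hd] at e2
    rw [e2]
    exact (coeff (minpoly ↥C (algebraMap A₀ F ϖ • y)) k).2
  have h3 : ∀ k, m.coeff k ∈ C := fun k =>
    hprime.mem_of_pow_mul_mem hϖ0 hcC hcn (d - k) (d - k) (m.coeff k) (h1 k) (h2 k)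
  have hlift : m ∈ Polynomial.lifts (algebraMap ↥C F) := by
    rw [Polynomial.lifts_iff_coeff_lifts]
    intro k
    exact ⟨⟨_, h3 k⟩, rfl⟩
  obtain ⟨m', hm'map, -, hm'm⟩ := Polynomial.lifts_and_degree_eq_and_monic hlift
    (minpoly.monic hyF)
  refine ⟨m', hm'm, ?_⟩
  have h0 : eval₂ (algebraMap F E) y m = 0 := minpoly.aeval F y
  rw [← hm'map, eval₂_map] at h0
  exact h0

end Fermat.Agent.S18.H47
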