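/-
S18 / wave 4 (helper47): Leaf C `kummer_cech` — the common lift: the idempotent
`ε̃ = p⁻¹ ∑ g^i` of the Kummer extension is congruent modulo `ϖ S` to an element integral over
both charts.
-/
import Fermat.Agent.S18.H47.Glue
import Fermat.Agent.S18.H47.Saturation
import Fermat.Agent.S18.H47.Cech
import Fermat.Agent.S18.H47.Finite
import Fermat.Agent.S18.H30.CechSkel
import Fermat.Agent.S18.H30.GlobalPow

set_option autoImplicit false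

open Polynomial

noncomputable section

namespace Fermat.Agent.S18.H47

variable {A₀ : Type*} [CommRing A₀] {F : Type*} [Field F] [Algebra A₀ F]

/-- An element congruent modulo `ϖ S` to an idempotent modulo `ϖ S` and integral over `C` is an
idempotent modulo `ϖ B`. -/
theorem idem_of_congr (ϖ : A₀) (C O : Subalgebra A₀ F) [IsIntegrallyClosed ↥C]
    (hfrac : ∀ x : F, ∃ a ∈ C, ∃ b ∈ C, b ≠ 0 ∧ x = a / b)
    (hprime : IsPrimeElt ϖ C) (hloc : IsLocAt ϖ C O) (hϖ0 : algebraMap A₀ F ϖ ≠ 0)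
    {E : Type*} [Field E] [Algebra F E] [Algebra A₀ E] [IsScalarTower A₀ F E]
    [Algebra.IsAlgebraic F E]
    (ε s₀ β s : E) (hε : IsIntegral ↥O ε) (hs₀ : IsIntegral ↥O s₀) (hεsq : ε ^ 2 - ε = ϖ • s₀)
    (hβ : IsIntegral ↥C β) (hs : IsIntegral ↥O s) (h : ε = β + ϖ • s) :
    ∃ w : E, IsIntegral ↥C w ∧ β ^ 2 - β = ϖ • w := by
  have hϖs : ∀ z : E, IsIntegral ↥O z → IsIntegral ↥O (ϖ • z) := by
    intro z hz
    have : ϖ • z = (algebraMap A₀ F ϖ) • z := (algebraMap_smul F ϖ z).symm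
    rw [this]
    exact isIntegral_smul_of_mem (O.algebraMap_mem ϖ) hz
  set w : E := s₀ - (ε * s + ε * s) + ϖ • s ^ 2 + s with hw
  have hwO : IsIntegral ↥O w :=
    ((hs₀.sub ((hε.mul hs).add (hε.mul hs))).add (hϖs _ (hs.pow 2))).add hs
  have hβw : β ^ 2 - β = ϖ • w := by
    have hβ' : β = ε - ϖ • s := by rw [h]; ring
    have e1 : β ^ 2 - β = (ε ^ 2 - ε) - ϖ • (ε * s + ε * s) + ϖ • (ϖ • s ^ 2) + ϖ • s := by
      rw [hβ']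
      simp only [Algebra.smul_def]
      ring
    rw [e1, hεsq, hw]
    simp only [smul_add, smul_sub]
  refine ⟨w, ?_, hβw⟩
  refine saturation ϖ C O hfrac hprime hloc hϖ0 w hwO ?_
  rw [← hβw]
  exact (hβ.pow 2).sub hβ

/-- **The common lift.** -/
theorem exists_common_lift [IsDomain A₀] [IsDiscreteValuationRing A₀] [FaithfulSMul A₀ F]
    (ϖ : A₀) (hϖ : Irreducible ϖ) (p : ℕ) (hp0 : p ≠ 0) (hpu : IsUnit (p : A₀))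
    (j : F) (C₁ C₂ O : Subalgebra A₀ F) [IsIntegrallyClosed ↥C₁] [IsIntegrallyClosed ↥C₂]
    [IsNoetherianRing ↥C₁] [IsNoetherianRing ↥C₂]
    (hj₁ : j ∈ C₁) (hj₂ : j⁻¹ ∈ C₂) (hj0 : j ≠ 0)
    (hfin₁ : ∃ s : Finset F, (C₁ : Set F) =
      Submodule.span (Algebra.adjoin A₀ ({j} : Set F)) (s : Set F))
    (hfrac₁ : ∀ x : F, ∃ a ∈ C₁, ∃ b ∈ C₁, b ≠ 0 ∧ x = a / b)
    (hfrac₂ : ∀ x : F, ∃ a ∈ C₂, ∃ b ∈ C₂, b ≠ 0 ∧ x = a / b)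
    (h12 : ∀ y ∈ C₂, ∃ n : ℕ, j ^ n * y ∈ C₁) (h21 : ∀ y ∈ C₁, ∃ n : ℕ, j⁻¹ ^ n * y ∈ C₂)
    (hded₁ : IsDedekindDomain (↥C₁ ⧸ Ideal.span {algebraMap A₀ ↥C₁ ϖ}))
    (hded₂ : IsDedekindDomain (↥C₂ ⧸ Ideal.span {algebraMap A₀ ↥C₂ ϖ}))
    (hloc₁ : IsLocAt ϖ C₁ O) (hloc₂ : IsLocAt ϖ C₂ O)
    (f : F) (hf : ∃ a ∈ C₁, ∃ b ∈ C₁, ¬ Dv ϖ C₁ b ∧ Dv ϖ C₁ (a - b) ∧ f * b = a)
    (hdiv : ∀ V : ValuationSubring F, (∀ a : A₀, a ≠ 0 → (algebraMap A₀ F a)⁻¹ ∈ V) →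
      IsDiscreteValuationRing V → ∃ t : F, t ≠ 0 ∧ f / t ^ p ∈ V ∧ (f / t ^ p)⁻¹ ∈ V)
    {E : Type*} [Field E] [Algebra F E] [Algebra A₀ E] [IsScalarTower A₀ F E]
    [FiniteDimensional F E] [Algebra.IsSeparable F E]
    (g : E) (hg : g ^ p = algebraMap F E f) :
    ∃ G : E, IsIntegral ↥C₁ G ∧ IsIntegral ↥C₂ G ∧ ∃ s : E, IsIntegral ↥O s ∧
      (p : E)⁻¹ * ∑ i ∈ Finset.range p, g ^ i - G = ϖ • s := by
  classical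
  have hϖ0 : algebraMap A₀ F ϖ ≠ 0 := fun h0 =>
    hϖ.ne_zero (FaithfulSMul.algebraMap_injective A₀ F (by rw [h0, map_zero]))
  have hp₁ : IsPrimeElt ϖ C₁ := isPrimeElt_of_isDomain ϖ C₁ hded₁.toIsDomain
  have hp₂ : IsPrimeElt ϖ C₂ := isPrimeElt_of_isDomain ϖ C₂ hded₂.toIsDomain
  have hOic : IsIntegrallyClosed ↥O := hloc₁.isIntegrallyClosed hp₁ hfrac₁
  have hOfrac := hloc₁.frac hfrac₁
  have hbar₁ : IsIntegrallyClosed (↥C₁ ⧸ Ideal.span {algebraMap A₀ ↥C₁ ϖ}) := inferInstance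
  have hbar₂ : IsIntegrallyClosed (↥C₂ ⧸ Ideal.span {algebraMap A₀ ↥C₂ ϖ}) := inferInstance
  have hf₂ := oneUnit_transfer ϖ C₁ C₂ O hp₁ hloc₁ hloc₂ j hj₁ hj₂ hj0 h21 f hf
  have halg : Algebra.IsAlgebraic F E := inferInstance
  -- idempotents on both charts
  obtain ⟨β₁, hβ₁, s₁, hs₁, hε₁⟩ := global_idem ϖ C₁ O hp₁ hloc₁ hOfrac hϖ0 hbar₁ p hp0 hpu f hf
    g hg (fun x hx hϖx => H30.local_factor_subalgebra ϖ hϖ p hp0 C₁ hfrac₁ hded₁ f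
      (oneUnit_num_not_dv hf) hdiv x hx hϖx)
  obtain ⟨β₂, hβ₂, s₂, hs₂, hε₂⟩ := global_idem ϖ C₂ O hp₂ hloc₂ hOfrac hϖ0 hbar₂ p hp0 hpu f hf₂
    g hg (fun x hx hϖx => H30.local_factor_subalgebra ϖ hϖ p hp0 C₂ hfrac₂ hded₂ f
      (oneUnit_num_not_dv hf₂) hdiv x hx hϖx)
  obtain ⟨s₀, hs₀, hεsq⟩ := eps_sq_sub hloc₁ p hp0 hpu f hf g hg
  have hεint := isIntegral_eps hloc₁ p hp0 hpu f hf g hg
  set ε := (p : E)⁻¹ * ∑ i ∈ Finset.range p, g ^ i with hε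
  obtain ⟨w₁, hw₁, hβ₁sq⟩ := idem_of_congr ϖ C₁ O hfrac₁ hp₁ hloc₁ hϖ0 ε s₀ β₁ s₁ hεint hs₀ hεsq
    hβ₁ hs₁ hε₁
  obtain ⟨w₂, hw₂, hβ₂sq⟩ := idem_of_congr ϖ C₂ O hfrac₂ hp₂ hloc₂ hϖ0 ε s₀ β₂ s₂ hεint hs₀ hεsq
    hβ₂ hs₂ hε₂
  have hdiff : β₁ - β₂ = ϖ • (s₂ - s₁) := by
    rw [smul_sub]
    linear_combination hε₂ - hε₁
  -- `s₂ - s₁` is integral over `C₁ ⊔ C₂`
  obtain ⟨n, hn⟩ := exists_pow_smul_isIntegral C₁ C₂ j hj₁ h12 β₂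
    (isIntegral_of_le le_sup_right hβ₂)
  have hw12 : IsIntegral ↥(C₁ ⊔ C₂) (s₂ - s₁) := by
    have h1 : IsIntegral ↥C₁ (ϖ • (j ^ n • (s₂ - s₁))) := by
      rw [smul_comm, ← hdiff, smul_sub]
      exact (isIntegral_smul_of_mem (C₁.pow_mem hj₁ n) hβ₁).sub hn
    have h2 : IsIntegral ↥O (j ^ n • (s₂ - s₁)) :=
      isIntegral_smul_of_mem (hloc₁.le (C₁.pow_mem hj₁ n)) (hs₂.sub hs₁)
    have h3 : IsIntegral ↥C₁ (j ^ n • (s₂ - s₁)) :=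
      saturation ϖ C₁ O hfrac₁ hp₁ hloc₁ hϖ0 _ h2 h1
    have h4 : s₂ - s₁ = (j⁻¹ ^ n) • (j ^ n • (s₂ - s₁)) := by
      rw [smul_smul, ← mul_pow, inv_mul_cancel₀ hj0, one_pow, one_smul]
    rw [h4]
    exact isIntegral_smul_of_mem ((le_sup_right : C₂ ≤ C₁ ⊔ C₂) (C₂.pow_mem hj₂ n))
      (isIntegral_of_le le_sup_left h3)
  -- the subalgebras of `E`
  let B₁ : Subalgebra A₀ E := (integralClosure ↥C₁ E).restrictScalars A₀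
  let B₂ : Subalgebra A₀ E := (integralClosure ↥C₂ E).restrictScalars A₀
  let B₁₂ : Subalgebra A₀ E := (integralClosure ↥(C₁ ⊔ C₂) E).restrictScalars A₀
  obtain ⟨sfin, hsfin, hspan⟩ := exists_finset_span_integralClosure j C₁ hfrac₁ hfin₁ (E := E)
  have hjE0 : algebraMap F E j ≠ 0 := fun h0 =>
    hj0 ((algebraMap F E).injective (by rw [h0, map_zero]))
  have hjB₂ : (algebraMap F E j)⁻¹ ∈ B₂ := by
    rw [← map_inv₀]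
    exact isIntegral_algebraMap_of_mem hj₂
  obtain ⟨s', hs'⟩ := H30.k6_exists_finset_cover (algebraMap F E j) hjE0 B₁ B₂ B₁₂
    (isIntegral_algebraMap_of_mem hj₁) hjB₂ ⟨sfin, hsfin, fun y hy => hspan y hy⟩
    (fun y hy => by
      obtain ⟨n, hn⟩ := exists_pow_smul_isIntegral C₁ C₂ j hj₁ h12 y hy
      refine ⟨n, ?_⟩
      rw [← map_pow, ← Algebra.smul_def]
      exact hn)
    (fun y hy => by
      obtain ⟨n, hn⟩ := exists_pow_smul_isIntegral C₂ C₁ j⁻¹ hj₂ h21 y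
        (isIntegral_of_le le_sup_right hy)
      refine ⟨n, ?_⟩
      rw [← map_inv₀, ← map_pow, ← Algebra.smul_def]
      exact hn)
  obtain ⟨G, hG₁, hG₂, w, hw, hGw⟩ := cech_lift ϖ B₁ B₂ B₁₂
    (fun y hy => isIntegral_of_le le_sup_left hy) (fun y hy => isIntegral_of_le le_sup_right hy)
    s' hs' β₁ β₂ hβ₁ hβ₂ ⟨w₁, hw₁, hβ₁sq⟩ ⟨w₂, hw₂, hβ₂sq⟩ ⟨s₂ - s₁, hw12, hdiff⟩
  refine ⟨G, hG₁, hG₂, s₁ - w, hs₁.sub (isIntegral_of_le hloc₁.le hw), ?_⟩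
  rw [smul_sub, ← hGw, hε₁]
  ring

end Fermat.Agent.S18.H47
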