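/-
S18 / wave 4 (helper47): Leaf C `kummer_cech`, step K2 — the trace lemma on the Kummer extension
`E = F[T]/(T^p - f)`: the powers `1, g, …, g^(p-1)` of the root stay independent modulo `ϖ` on
integral elements.
-/
import Mathlib

set_option autoImplicit false

open Polynomial

noncomputable section

namespace Fermat.Agent.S18.H47

section KummerTrace

variable {F : Type*} [Field F] (p : ℕ) (f : F)

/-- The trace of `g ^ k` vanishes for `0 < k < p`. -/
theorem trace_root_pow_eq_zero [Fact (Irreducible (X ^ p - C f : F[X]))] (hp0 : p ≠ 0)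
    (ζ : F) (hζ : IsPrimitiveRoot ζ p) (k : ℕ) (hk0 : k ≠ 0) (hkp : k < p) :
    Algebra.trace F (AdjoinRoot (X ^ p - C f : F[X]))
      (AdjoinRoot.root (X ^ p - C f : F[X]) ^ k) = 0 := by
  have : NeZero p := ⟨hp0⟩
  let η : rootsOfUnity p F := rootsOfUnity.mkOfPowEq ζ hζ.pow_eq_one
  have hη : ((η : Fˣ) : F) = ζ := rfl
  let σ := autAdjoinRootXPowSubC p f η
  have hσ : σ (AdjoinRoot.root (X ^ p - C f : F[X]) ^ k) =
      (ζ ^ k) • (AdjoinRoot.root (X ^ p - C f : F[X]) ^ k) := by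
    rw [map_pow, autAdjoinRootXPowSubC_root, hη, _root_.smul_pow]
  have h1 := Algebra.trace_eq_of_algEquiv σ (AdjoinRoot.root (X ^ p - C f : F[X]) ^ k)
  rw [hσ, map_smul, smul_eq_mul] at h1
  have h2 : (ζ ^ k - 1) * Algebra.trace F (AdjoinRoot (X ^ p - C f : F[X]))
      (AdjoinRoot.root (X ^ p - C f : F[X]) ^ k) = 0 := by
    rw [sub_mul, one_mul, h1, sub_self]
  rcases mul_eq_zero.mp h2 with h3 | h3
  · exact absurd (sub_eq_zero.mp h3) (hζ.pow_ne_one_of_pos_of_lt hk0 hkp)
  · exact h3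

theorem finrank_adjoinRoot_X_pow_sub_C [Fact (Irreducible (X ^ p - C f : F[X]))] :
    Module.finrank F (AdjoinRoot (X ^ p - C f : F[X])) = p := by
  have hne : (X ^ p - C f : F[X]) ≠ 0 := (Fact.out : Irreducible (X ^ p - C f : F[X])).ne_zero
  rw [(AdjoinRoot.powerBasis hne).finrank, AdjoinRoot.powerBasis_dim,
    natDegree_X_pow_sub_C]

/-- The trace of `g ^ (i + (p - b))` for `i, b < p`. -/
theorem trace_root_pow_add [Fact (Irreducible (X ^ p - C f : F[X]))] (hp0 : p ≠ 0)
    (ζ : F) (hζ : IsPrimitiveRoot ζ p) (i b : ℕ) (hi : i < p) (hb : b < p) :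
    Algebra.trace F (AdjoinRoot (X ^ p - C f : F[X]))
      (AdjoinRoot.root (X ^ p - C f : F[X]) ^ (i + (p - b))) = if i = b then (p : F) * f else 0 := by
  have hgp : AdjoinRoot.root (X ^ p - C f : F[X]) ^ p =
      algebraMap F (AdjoinRoot (X ^ p - C f : F[X])) f := by
    rw [root_X_pow_sub_C_pow, AdjoinRoot.algebraMap_eq]
  have : FiniteDimensional F (AdjoinRoot (X ^ p - C f : F[X])) :=
    (AdjoinRoot.powerBasis (Fact.out : Irreducible (X ^ p - C f : F[X])).ne_zero).finite
  split_ifs with hib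
  · subst hib
    have : i + (p - i) = p := by omega
    rw [this, hgp, Algebra.trace_algebraMap, finrank_adjoinRoot_X_pow_sub_C p f, nsmul_eq_mul]
  · rcases lt_or_gt_of_ne hib with h | h
    · -- i < b : exponent in (0, p)
      exact trace_root_pow_eq_zero p f hp0 ζ hζ _ (by omega) (by omega)
    · -- b < i : exponent = p + (i - b)
      have : i + (p - b) = p + (i - b) := by omega
      rw [this, pow_add, hgp, ← Algebra.smul_def, map_smul,
        trace_root_pow_eq_zero p f hp0 ζ hζ _ (by omega) (by omega), smul_zero]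

end KummerTrace

variable {A₀ : Type*} [CommRing A₀] {F : Type*} [Field F] [Algebra A₀ F]

/-- **K2.** If `ϖ • y = ∑ r_i g^i` with `y` integral over `O` and `r_i ∈ O`, then every `r_i` is
divisible by `ϖ` in `O`. -/
theorem coeff_dvd_of_integral (ϖ : A₀) (O : Subalgebra A₀ F) [IsIntegrallyClosed ↥O]
    (hOfrac : ∀ x : F, ∃ a ∈ O, ∃ b ∈ O, b ≠ 0 ∧ x = a / b)
    (p : ℕ) (hp : p.Prime) (hpO : ((p : F))⁻¹ ∈ O) (ζ : F) (hζ : IsPrimitiveRoot ζ p)
    (f : F) (hf : f ∈ O) (hf' : f⁻¹ ∈ O) (hirr : Irreducible (X ^ p - C f : F[X]))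
    (r : Fin p → F) (_hr : ∀ i, r i ∈ O)
    (y : AdjoinRoot (X ^ p - C f : F[X])) (hy : IsIntegral ↥O y)
    (h : ϖ • y = ∑ i : Fin p, r i • AdjoinRoot.root (X ^ p - C f : F[X]) ^ (i : ℕ)) :
    ∀ i, ∃ d ∈ O, r i = ϖ • d := by
  have : Fact (Irreducible (X ^ p - C f : F[X])) := ⟨hirr⟩
  have hp0 : p ≠ 0 := hp.ne_zero
  have : FiniteDimensional F (AdjoinRoot (X ^ p - C f : F[X])) :=
    (AdjoinRoot.powerBasis hirr.ne_zero).finite
  have : IsFractionRing ↥O F := by
    refine IsFractionRing.of_field ↥O F fun z => ?_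
    obtain ⟨a, ha, b, hb, -, rfl⟩ := hOfrac z
    exact ⟨⟨a, ha⟩, ⟨b, hb⟩, rfl⟩
  set g := AdjoinRoot.root (X ^ p - C f : F[X]) with hg
  have hgp : g ^ p = algebraMap F (AdjoinRoot (X ^ p - C f : F[X])) f := by
    rw [hg, root_X_pow_sub_C_pow, AdjoinRoot.algebraMap_eq]
  have hf0 : f ≠ 0 := by
    rintro rfl
    have hO0 : ((0 : F)⁻¹) = 0 := inv_zero
    -- `X ^ p` is not irreducible for a prime `p`
    have hirr' : Irreducible (X ^ p : F[X]) := by simpa using hirr
    have := hirr'.isUnit_or_isUnit (a := X) (b := X ^ (p - 1)) (by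
      rw [← pow_succ']; congr 1; have := hp.two_le; omega)
    rcases this with hu | hu
    · exact Polynomial.not_isUnit_X hu
    · have h2 := hp.two_le
      rw [Polynomial.isUnit_iff] at hu
      obtain ⟨c, hc, hcx⟩ := hu
      have hdeg := congrArg Polynomial.natDegree hcx
      rw [natDegree_C, natDegree_X_pow] at hdeg
      omega
  -- `g` is integral over `O`
  have hgint : IsIntegral ↥O g := by
    refine ⟨X ^ p - C (⟨f, hf⟩ : ↥O), monic_X_pow_sub_C _ hp0, ?_⟩
    rw [eval₂_sub, eval₂_X_pow, eval₂_C, hgp]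
    exact sub_self _
  intro b
  -- the test element
  set z := y * g ^ (p - (b : ℕ)) * algebraMap F _ f⁻¹ with hz
  have hzint : IsIntegral ↥O z := by
    refine (hy.mul (hgint.pow _)).mul ?_
    have : algebraMap F (AdjoinRoot (X ^ p - C f : F[X])) f⁻¹ =
        algebraMap ↥O (AdjoinRoot (X ^ p - C f : F[X])) ⟨f⁻¹, hf'⟩ := rfl
    rw [this]
    exact isIntegral_algebraMap
  have htr : IsIntegral ↥O (Algebra.trace F (AdjoinRoot (X ^ p - C f : F[X])) z) :=
    Algebra.isIntegral_trace hzint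
  obtain ⟨d, hd⟩ := IsIntegrallyClosed.isIntegral_iff.mp htr
  -- compute `ϖ • trace z`
  have hcomp : algebraMap A₀ F ϖ * Algebra.trace F (AdjoinRoot (X ^ p - C f : F[X])) z =
      (p : F) * r b := by
    have e1 : algebraMap A₀ F ϖ • z =
        ∑ i : Fin p, (r i * f⁻¹) • g ^ ((i : ℕ) + (p - (b : ℕ))) := by
      have e0 : algebraMap A₀ F ϖ • z = (ϖ • y) * g ^ (p - (b : ℕ)) * algebraMap F _ f⁻¹ := by
        rw [hz, algebraMap_smul, smul_mul_assoc, smul_mul_assoc]
      rw [e0, h, Finset.sum_mul, Finset.sum_mul]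
      refine Finset.sum_congr rfl fun i _ => ?_
      rw [Algebra.smul_def, Algebra.smul_def, map_mul, pow_add]
      ring
    have e2 := congrArg (Algebra.trace F (AdjoinRoot (X ^ p - C f : F[X]))) e1
    rw [map_smul, smul_eq_mul, map_sum] at e2
    rw [e2]
    have e3 : ∀ i : Fin p, Algebra.trace F (AdjoinRoot (X ^ p - C f : F[X]))
        ((r i * f⁻¹) • g ^ ((i : ℕ) + (p - (b : ℕ)))) =
        if i = b then (p : F) * r b else 0 := by
      intro i
      rw [map_smul, smul_eq_mul, hg, trace_root_pow_add p f hp0 ζ hζ i b i.2 b.2]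
      by_cases hib : i = b
      · subst hib
        simp only [if_true]
        field_simp
      · have : (i : ℕ) ≠ (b : ℕ) := fun h => hib (Fin.ext h)
        simp [hib, this]
    rw [Finset.sum_congr rfl fun i _ => e3 i]
    simp
  refine ⟨(p : F)⁻¹ * (d : F), O.mul_mem hpO d.2, ?_⟩
  have hpF : (p : F) ≠ 0 := by
    intro h0
    rw [h0, zero_mul] at hcomp
    -- then `p = 0` in `F` but `p⁻¹ ∈ O`... derive contradiction from the primitive root
    have hζ1 := hζ.pow_eq_one
    -- in characteristic `p` there is no primitive `p`-th root of unity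
    have hchar : (ζ - 1) ^ p = 0 := by
      have : Fact p.Prime := ⟨hp⟩
      have : CharP F p := (CharP.charP_iff_prime_eq_zero hp).mpr h0
      rw [sub_pow_char, one_pow, hζ1, sub_self]
    have hζ' : ζ = 1 := sub_eq_zero.mp ((pow_eq_zero_iff (n := p) hp0).mp hchar)
    exact hζ.ne_one hp.one_lt hζ'
  have hd' : (d : F) = Algebra.trace F (AdjoinRoot (X ^ p - C f : F[X])) z := hd
  rw [Algebra.smul_def, hd', ← mul_assoc, mul_comm (algebraMap A₀ F ϖ), mul_assoc, hcomp]
  field_simp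

end Fermat.Agent.S18.H47
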