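/-
S18 / wave 4 (helper47): Leaf C of the route of report #1088 — the abstract Kummer–Čech theorem
`kummer_cech` (statement of helper19's skeleton `H19/Route.lean`, verbatim).

Two charts `C₁ ∋ j`, `C₂ ∋ j⁻¹` of a "curve over the DVR `A₀`" with Dedekind special fibres;
`f ≡ 1 mod ϖ` whose order at every discrete valuation ring of `F` over `K₀` is divisible by `p`;
`A₀` integrally closed in `F[T]/(T^p - f)`.  Then `f` is a `p`-th power.
-/
import Fermat.Agent.S18.H47.Common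
import Fermat.Agent.S18.H63.LocGlue
import Fermat.Agent.S18.H47.ValInt
import Fermat.Agent.S18.H47.KTrace

set_option autoImplicit false

open Polynomial

noncomputable section

namespace Fermat.Agent.S18.H47

/-- An element integral over both charts is integral over `A₀`. -/
theorem isIntegral_base_of_charts {A₀ : Type*} [CommRing A₀] {F : Type*} [Field F] [Algebra A₀ F]
    (j : F) (C₁ C₂ : Subalgebra A₀ F)
    (hint₁ : ∀ c ∈ C₁, IsIntegral (Algebra.adjoin A₀ ({j} : Set F)) c)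
    (hint₂ : ∀ c ∈ C₂, IsIntegral (Algebra.adjoin A₀ ({j⁻¹} : Set F)) c)
    {E : Type*} [Field E] [Algebra F E] [Algebra A₀ E] [IsScalarTower A₀ F E] (G : E)
    (h₁ : IsIntegral ↥C₁ G) (h₂ : IsIntegral ↥C₂ G) : IsIntegral A₀ G := by
  refine isIntegral_of_forall_valuationSubring G fun V hV => ?_
  have key : ∀ (x : F) (C : Subalgebra A₀ F), algebraMap F E x ∈ V →
      (∀ c ∈ C, IsIntegral (Algebra.adjoin A₀ ({x} : Set F)) c) → IsIntegral ↥C G → G ∈ V := by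
    intro x C hx hint hG
    have hadj : ∀ r : Algebra.adjoin A₀ ({x} : Set F),
        algebraMap (Algebra.adjoin A₀ ({x} : Set F)) E r ∈ V := by
      rintro ⟨r, hr⟩
      change algebraMap F E r ∈ V
      induction hr using Algebra.adjoin_induction with
      | mem y hy => rw [Set.mem_singleton_iff.mp hy]; exact hx
      | algebraMap a => rw [← IsScalarTower.algebraMap_apply]; exact hV a
      | add y z _ _ hy hz => rw [map_add]; exact V.add_mem _ _ hy hz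
      | mul y z _ _ hy hz => rw [map_mul]; exact V.mul_mem _ _ hy hz
    have hC : ∀ c : ↥C, algebraMap ↥C E c ∈ V := by
      intro c
      have h1 : IsIntegral (Algebra.adjoin A₀ ({x} : Set F)) (algebraMap F E (c : F)) :=
        (hint c c.2).algebraMap
      exact mem_valuationSubring_of_isIntegral V hadj h1
    exact mem_valuationSubring_of_isIntegral V hC hG
  rcases V.mem_or_inv_mem (algebraMap F E j) with hjV | hjV
  · exact key j C₁ hjV hint₁ h₁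
  · exact key j⁻¹ C₂ (by rwa [map_inv₀]) hint₂ h₂

/-- **Kummer–Čech** (abstract; Leaf C of the route of report #1088). -/
theorem kummer_cech
    {A₀ : Type*} [CommRing A₀] [IsDomain A₀] [IsDiscreteValuationRing A₀] [CharZero A₀]
    {F : Type*} [Field F] [Algebra A₀ F] [FaithfulSMul A₀ F]
    (ϖ : A₀) (hϖ : Irreducible ϖ)
    (p : ℕ) (hp : p.Prime) (hpu : IsUnit (p : A₀)) (ζ : A₀) (hζ : IsPrimitiveRoot ζ p)
    (j : F) (htr : Transcendental A₀ j)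
    (C₁ C₂ : Subalgebra A₀ F) [IsIntegrallyClosed ↥C₁] [IsIntegrallyClosed ↥C₂]
    (hj₁ : j ∈ C₁) (hj₂ : j⁻¹ ∈ C₂)
    -- finiteness over `A₀[j]`, `A₀[j⁻¹]`
    (hfin₁ : ∃ s : Finset F, (C₁ : Set F) =
      Submodule.span (Algebra.adjoin A₀ ({j} : Set F)) (s : Set F))
    (hfin₂ : ∃ s : Finset F, (C₂ : Set F) =
      Submodule.span (Algebra.adjoin A₀ ({j⁻¹} : Set F)) (s : Set F))
    -- `Frac C₁ = F`, and `C₁[1/j] = C₂[j]`
    (hfrac : ∀ x : F, ∃ a ∈ C₁, ∃ b ∈ C₁, b ≠ 0 ∧ x = a / b)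
    (hglue : ∀ x : F, (∃ n : ℕ, j ^ n * x ∈ C₁) ↔ (∃ n : ℕ, j⁻¹ ^ n * x ∈ C₂))
    -- special fibres: Dedekind domains in which `j` resp. `j⁻¹` stays transcendental
    (hded₁ : IsDedekindDomain (↥C₁ ⧸ Ideal.span {algebraMap A₀ ↥C₁ ϖ}))
    (hded₂ : IsDedekindDomain (↥C₂ ⧸ Ideal.span {algebraMap A₀ ↥C₂ ϖ}))
    (hjbar : ∀ P : A₀[X], (∃ c ∈ C₁, Polynomial.aeval j P = ϖ • c) → ∀ i, ϖ ∣ P.coeff i)
    -- `f ≡ 1 mod ϖ`
    (f : F) (hf : ∃ a ∈ C₁, ∃ b ∈ C₁, (¬ ∃ c ∈ C₁, b = ϖ • c) ∧ (∃ c ∈ C₁, a - b = ϖ • c) ∧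
      f * b = a)
    -- divisor of `f` divisible by `p`
    (hdiv : ∀ V : ValuationSubring F, (∀ a : A₀, a ≠ 0 → (algebraMap A₀ F a)⁻¹ ∈ V) →
      IsDiscreteValuationRing V → ∃ t : F, t ≠ 0 ∧ f / t ^ p ∈ V ∧ (f / t ^ p)⁻¹ ∈ V)
    -- `A₀` is integrally closed in the Kummer algebra
    (hE : ∀ y : AdjoinRoot (X ^ p - Polynomial.C f : F[X]), IsIntegral A₀ y →
      ∃ a : A₀, y = algebraMap A₀ (AdjoinRoot (X ^ p - Polynomial.C f : F[X])) a) :
    ∃ g : F, g ^ p = f := by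
  classical
  by_contra hnot
  have hnot' : ∀ b : F, b ^ p ≠ f := fun b hb => hnot ⟨b, hb⟩
  have hirr : Irreducible (X ^ p - C f : F[X]) := X_pow_sub_C_irreducible_of_prime hp hnot'
  have : Fact (Irreducible (X ^ p - C f : F[X])) := ⟨hirr⟩
  have hp0 : p ≠ 0 := hp.ne_zero
  have hinj : Function.Injective (algebraMap A₀ F) := FaithfulSMul.algebraMap_injective A₀ F
  have : CharZero F := charZero_of_injective_algebraMap hinj
  have : FiniteDimensional F (AdjoinRoot (X ^ p - C f : F[X])) :=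
    (AdjoinRoot.powerBasis hirr.ne_zero).finite
  -- noetherianity and integrality over `A₀[j]`, `A₀[j⁻¹]`
  obtain ⟨hN₁, hint₁⟩ := noeth_and_integral j C₁ hj₁ hfin₁
  obtain ⟨hN₂, hint₂⟩ := noeth_and_integral j⁻¹ C₂ hj₂ hfin₂
  -- `ϖ` is a prime element of both charts
  have hp₁ : IsPrimeElt ϖ C₁ := isPrimeElt_of_isDomain ϖ C₁ hded₁.toIsDomain
  have hp₂ : IsPrimeElt ϖ C₂ := isPrimeElt_of_isDomain ϖ C₂ hded₂.toIsDomain
  have hjn : ∀ n : ℕ, ¬ Dv ϖ C₁ (j ^ n) := by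
    rintro n ⟨c, hc, hjc⟩
    have h1 := hjbar (X ^ n) ⟨c, hc, by rw [map_pow, aeval_X]; exact hjc⟩ n
    rw [coeff_X_pow, if_pos rfl] at h1
    exact hϖ.not_isUnit (isUnit_of_dvd_one h1)
  have hj0 : j ≠ 0 := by
    rintro rfl
    exact hjn 1 ⟨0, C₁.zero_mem, by simp⟩
  have h12 : ∀ y ∈ C₂, ∃ n : ℕ, j ^ n * y ∈ C₁ := fun y hy =>
    (hglue y).mpr ⟨0, by simpa using hy⟩
  have h21 : ∀ y ∈ C₁, ∃ n : ℕ, j⁻¹ ^ n * y ∈ C₂ := fun y hy =>
    (hglue y).mp ⟨0, by simpa using hy⟩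
  have hfrac₂ : ∀ x : F, ∃ a ∈ C₂, ∃ b ∈ C₂, b ≠ 0 ∧ x = a / b := by
    intro x
    obtain ⟨a, ha, b, hb, hb0, rfl⟩ := hfrac x
    obtain ⟨n, hn⟩ := h21 a ha
    obtain ⟨m, hm⟩ := h21 b hb
    have hjinv0 : j⁻¹ ≠ 0 := inv_ne_zero hj0
    refine ⟨j⁻¹ ^ (n + m) * a, ?_, j⁻¹ ^ (n + m) * b, ?_, ?_, ?_⟩
    · have : j⁻¹ ^ (n + m) * a = j⁻¹ ^ m * (j⁻¹ ^ n * a) := by ring
      rw [this]
      exact C₂.mul_mem (C₂.pow_mem hj₂ m) hn
    · have : j⁻¹ ^ (n + m) * b = j⁻¹ ^ n * (j⁻¹ ^ m * b) := by ring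
      rw [this]
      exact C₂.mul_mem (C₂.pow_mem hj₂ n) hm
    · exact mul_ne_zero (pow_ne_zero _ hjinv0) hb0
    · rw [mul_div_mul_left _ _ (pow_ne_zero _ hjinv0)]
  -- the common localisation `O`
  obtain ⟨O, hloc₁⟩ := H63.exists_isLocAt ϖ C₁ hp₁
  have hloc₂ : IsLocAt ϖ C₂ O :=
    H63.isLocAt_of_glue ϖ C₁ C₂ O hp₁ hp₂ j hj₁ hj₂ hglue hjn hloc₁
  -- the common lift of the idempotent
  have hg : AdjoinRoot.root (X ^ p - C f : F[X]) ^ p =
      algebraMap F (AdjoinRoot (X ^ p - C f : F[X])) f := by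
    rw [root_X_pow_sub_C_pow, AdjoinRoot.algebraMap_eq]
  obtain ⟨G, hG₁, hG₂, s, hs, hGs⟩ := exists_common_lift ϖ hϖ p hp0 hpu j C₁ C₂ O hj₁ hj₂ hj0
    hfin₁ hfrac hfrac₂ h12 h21 hded₁ hded₂ hloc₁ hloc₂ f hf hdiv
    (AdjoinRoot.root (X ^ p - C f : F[X])) hg
  -- `G` is a constant
  have hGint : IsIntegral A₀ G := isIntegral_base_of_charts j C₁ C₂ hint₁ hint₂ G hG₁ hG₂
  obtain ⟨a₀, ha₀⟩ := hE G hGint
  -- contradiction with the trace lemma
  have hOic : IsIntegrallyClosed ↥O := hloc₁.isIntegrallyClosed hp₁ hfrac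
  have hOfrac := hloc₁.frac hfrac
  have hpF0 : (p : F) ≠ 0 := Nat.cast_ne_zero.mpr hp0
  obtain ⟨pu, hpu'⟩ := hpu
  have hpF : ((p : F))⁻¹ = algebraMap A₀ F ((pu⁻¹ : A₀ˣ) : A₀) := by
    have h1 : (p : F) * algebraMap A₀ F ((pu⁻¹ : A₀ˣ) : A₀) = 1 := by
      rw [← map_natCast (algebraMap A₀ F) p, ← map_mul, ← hpu', Units.mul_inv, map_one]
    exact inv_eq_of_mul_eq_one_right h1
  have hpO : ((p : F))⁻¹ ∈ O := by
    rw [hpF]
    exact O.algebraMap_mem _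
  have hζF : IsPrimitiveRoot (algebraMap A₀ F ζ) p := hζ.map_of_injective hinj
  let r : Fin p → F := fun i => (p : F)⁻¹ - (if (i : ℕ) = 0 then algebraMap A₀ F a₀ else 0)
  have hr : ∀ i, r i ∈ O := fun i => by
    refine O.sub_mem hpO ?_
    split_ifs
    · exact O.algebraMap_mem _
    · exact O.zero_mem
  have hsum : ϖ • s = ∑ i : Fin p, r i • AdjoinRoot.root (X ^ p - C f : F[X]) ^ (i : ℕ) := by
    rw [← hGs, ha₀]
    rw [Fin.sum_univ_eq_sum_range (fun i => ((p : F)⁻¹ - (if i = 0 then algebraMap A₀ F a₀ else 0)) •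
      AdjoinRoot.root (X ^ p - C f : F[X]) ^ i) p]
    simp only [sub_smul, Finset.sum_sub_distrib, ite_smul, zero_smul]
    rw [Finset.sum_ite_eq' (Finset.range p) 0, if_pos (Finset.mem_range.mpr hp.pos), pow_zero,
      ← Finset.smul_sum, Algebra.smul_def, map_inv₀, map_natCast, Algebra.smul_def, mul_one,
      ← IsScalarTower.algebraMap_apply]
  obtain ⟨d, hd, hrd⟩ := coeff_dvd_of_integral ϖ O hOfrac p hp hpO (algebraMap A₀ F ζ) hζF f
    (mem_loc_of_oneUnit hloc₁ hf) (inv_mem_loc_of_oneUnit hloc₁ hf) hirr r hr s hs hsum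
    ⟨1, hp.one_lt⟩
  have hr1 : (p : F)⁻¹ = ϖ • d := by
    have : r ⟨1, hp.one_lt⟩ = (p : F)⁻¹ := by simp [r]
    rw [← this]
    exact hrd
  have h1 : (1 : F) = ϖ • ((p : F) * d) := by
    rw [← mul_smul_comm, ← hr1, mul_inv_cancel₀ hpF0]
  exact hp₁.one (hloc₁.dv_of_smul hp₁ C₁.one_mem (O.mul_mem (natCast_mem O p) hd) h1)

end Fermat.Agent.S18.H47
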